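/-
Programme JAC, work package B8.0 (helper10): wiring abstract representability to the frozen
structure `RepresentsRelSubPic`.

File 8: the absolute presheaf `T ↦ Σ t : T ⟶ Spec R, {classes of rigidified line bundles on
`C ×_R T` lying in the cut `P`}` on all schemes (shrunk to `Type u`), and the theorem: if this
presheaf is representable by a scheme `J`, then `J` carries a `RelativePic0Designation` which
`RepresentsRelSubPic`.
-/
import Mathlib
import Fermat.Prelude.Def_AlgebraicGeometry_RepresentsRelSubPic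

set_option autoImplicit false

universe u

open CategoryTheory Limits Opposite AlgebraicGeometry AlgebraicGeometry.RelPicard NeronModelInfra
  GoodReductionJacobian

namespace Fermat.Agent.JAC.Repr.Wiring10

variable {R : Type u} [CommRing R] {C : Scheme.{u}} {c : C ⟶ Spec (CommRingCat.of R)}
  {ε : SchemeHomOver (𝟙 (Spec (CommRingCat.of R))) c}

section Classes

variable {T T' T'' : Scheme.{u}} {t : T ⟶ Spec (CommRingCat.of R)}
  {t' : T' ⟶ Spec (CommRingCat.of R)} {t'' : T'' ⟶ Spec (CommRingCat.of R)}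

lemma classesMap_mk (ψ : SchemeHomOver t' t) (M : RigidifiedLineBundle c ε t) :
    RigidifiedLineBundle.classesMap ψ (Quotient.mk _ M : RigidifiedLineBundle.Classes c ε t) =
      Quotient.mk _ (M.pullbackAlong ψ) := rfl

lemma classesMap_id (ψ : SchemeHomOver t t) (hψ : ψ.1 = 𝟙 T)
    (ξ : RigidifiedLineBundle.Classes c ε t) :
    RigidifiedLineBundle.classesMap ψ ξ = ξ := by
  obtain ⟨f, hf⟩ := ψ
  obtain rfl : f = 𝟙 T := hψ
  exact ConcreteCategory.congr_hom ((relPicardPresheaf c ε).map_id (op (Over.mk t))) ξ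

lemma classesMap_comp (ψ : SchemeHomOver t' t) (ψ' : SchemeHomOver t'' t')
    (χ : SchemeHomOver t'' t) (hχ : χ.1 = ψ'.1 ≫ ψ.1) (ξ : RigidifiedLineBundle.Classes c ε t) :
    RigidifiedLineBundle.classesMap ψ' (RigidifiedLineBundle.classesMap ψ ξ) =
      RigidifiedLineBundle.classesMap χ ξ := by
  obtain ⟨f, hf⟩ := ψ
  obtain ⟨g, hg⟩ := ψ'
  obtain ⟨h, hh⟩ := χ
  obtain rfl : h = g ≫ f := hχ
  have := ConcreteCategory.congr_hom ((relPicardPresheaf c ε).map_comp
    (X := op (Over.mk t)) (Y := op (Over.mk t')) (Z := op (Over.mk t''))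
    (Over.homMk f hf : Over.mk t' ⟶ Over.mk t).op (Over.homMk g hg : Over.mk t'' ⟶ Over.mk t').op) ξ
  exact this.symm

end Classes

section Cut

variable (P : SubPicCondition c ε)

variable {T T' T'' : Scheme.{u}} {t : T ⟶ Spec (CommRingCat.of R)}
  {t' : T' ⟶ Spec (CommRingCat.of R)} {t'' : T'' ⟶ Spec (CommRingCat.of R)}

/-- The class of a rigidified line bundle. -/
def clsOf (M : RigidifiedLineBundle c ε t) : RigidifiedLineBundle.Classes c ε t :=
  Quotient.mk _ M

lemma clsOf_eq_clsOf_iff {M M' : RigidifiedLineBundle c ε t} :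
    clsOf M = clsOf M' ↔ Nonempty (M.L ≅ M'.L) :=
  ⟨fun h => Quotient.exact h, fun h => Quotient.sound h⟩

lemma exists_clsOf_eq (ξ : RigidifiedLineBundle.Classes c ε t) :
    ∃ M : RigidifiedLineBundle c ε t, clsOf M = ξ :=
  Quotient.exists_rep ξ

lemma classesMap_clsOf (ψ : SchemeHomOver t' t) (M : RigidifiedLineBundle c ε t) :
    RigidifiedLineBundle.classesMap ψ (clsOf M) = clsOf (M.pullbackAlong ψ) := rfl

/-- A class of rigidified line bundles lies in the cut `P`. -/
def InCut (t : T ⟶ Spec (CommRingCat.of R)) (ξ : RigidifiedLineBundle.Classes c ε t) : Prop :=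
  ∃ M : RigidifiedLineBundle c ε t, clsOf M = ξ ∧ P.P t M

variable {P}

lemma inCut_clsOf_iff {M : RigidifiedLineBundle c ε t} :
    InCut P t (clsOf M) ↔ P.P t M := by
  constructor
  · rintro ⟨M', h, hM'⟩
    exact P.congr t M' M (clsOf_eq_clsOf_iff.1 h) hM'
  · exact fun h => ⟨M, rfl, h⟩

lemma InCut.classesMap {ξ : RigidifiedLineBundle.Classes c ε t} (h : InCut P t ξ)
    (ψ : SchemeHomOver t' t) : InCut P t' (RigidifiedLineBundle.classesMap ψ ξ) := by
  obtain ⟨M, rfl, hM⟩ := h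
  exact ⟨M.pullbackAlong ψ, rfl, P.pullback_mem t t' ψ M hM⟩

variable (P) in
/-- The classes of rigidified line bundles on `C ×_R T` lying in the cut `P`. -/
def CutClasses (t : T ⟶ Spec (CommRingCat.of R)) : Type (u + 1) :=
  {ξ : RigidifiedLineBundle.Classes c ε t // InCut P t ξ}

/-- The class in the cut of a rigidified line bundle satisfying `P`. -/
def CutClasses.of (M : RigidifiedLineBundle c ε t) (hM : P.P t M) : CutClasses P t :=
  ⟨clsOf M, inCut_clsOf_iff.2 hM⟩

lemma CutClasses.exists_rep (ξ : CutClasses P t) :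
    ∃ (M : RigidifiedLineBundle c ε t) (hM : P.P t M), ξ = CutClasses.of M hM := by
  obtain ⟨ξ, M, rfl, hM⟩ := ξ
  exact ⟨M, hM, rfl⟩

lemma CutClasses.of_eq_of_iff {M M' : RigidifiedLineBundle c ε t} {hM : P.P t M}
    {hM' : P.P t M'} : CutClasses.of M hM = CutClasses.of M' hM' ↔ Nonempty (M.L ≅ M'.L) := by
  rw [← clsOf_eq_clsOf_iff]
  exact ⟨fun h => congrArg Subtype.val h, fun h => Subtype.ext h⟩

/-- Pullback of classes in the cut. -/
noncomputable def cutMap (ψ : SchemeHomOver t' t) (ξ : CutClasses P t) : CutClasses P t' :=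
  ⟨RigidifiedLineBundle.classesMap ψ ξ.1, ξ.2.classesMap ψ⟩

lemma cutMap_of (ψ : SchemeHomOver t' t) (M : RigidifiedLineBundle c ε t) (hM : P.P t M) :
    cutMap ψ (CutClasses.of M hM) =
      CutClasses.of (M.pullbackAlong ψ) (P.pullback_mem t t' ψ M hM) := rfl

lemma cutMap_id (ψ : SchemeHomOver t t) (hψ : ψ.1 = 𝟙 T) (ξ : CutClasses P t) :
    cutMap ψ ξ = ξ :=
  Subtype.ext (classesMap_id ψ hψ ξ.1)

lemma cutMap_comp (ψ : SchemeHomOver t' t) (ψ' : SchemeHomOver t'' t')
    (χ : SchemeHomOver t'' t) (hχ : χ.1 = ψ'.1 ≫ ψ.1) (ξ : CutClasses P t) :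
    cutMap ψ' (cutMap ψ ξ) = cutMap χ ξ :=
  Subtype.ext (classesMap_comp ψ ψ' χ hχ ξ.1)

end Cut

section Total

variable (P : SubPicCondition c ε)
  [hs : ∀ {T : Scheme.{u}} (t : T ⟶ Spec (CommRingCat.of R)), Small.{u} (CutClasses P t)]

/-- The value on `T` of the absolute Picard presheaf attached to the cut `P`: pairs of a
structure morphism `t : T ⟶ Spec R` and a class in the cut over `(T, t)`. -/
structure GObj (T : Scheme.{u}) : Type u where
  /-- the structure morphism -/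
  str : T ⟶ Spec (CommRingCat.of R)
  /-- the class, in the shrunk type -/
  shr : Shrink.{u} (CutClasses P str)

variable {P} {T T' T'' : Scheme.{u}}

/-- Constructor for the points of the absolute Picard presheaf. -/
noncomputable def GObj.of (t : T ⟶ Spec (CommRingCat.of R)) (ξ : CutClasses P t) : GObj P T :=
  ⟨t, equivShrink _ ξ⟩

/-- The class of a point of the absolute Picard presheaf. -/
noncomputable def GObj.cls (x : GObj P T) : CutClasses P x.str := (equivShrink _).symm x.shr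

@[simp] lemma GObj.of_str (t : T ⟶ Spec (CommRingCat.of R)) (ξ : CutClasses P t) :
    (GObj.of t ξ).str = t := rfl

@[simp] lemma GObj.of_cls (t : T ⟶ Spec (CommRingCat.of R)) (ξ : CutClasses P t) :
    (GObj.of t ξ).cls = ξ := (equivShrink _).symm_apply_apply ξ

@[simp] lemma GObj.of_str_cls (x : GObj P T) : GObj.of x.str x.cls = x := by
  obtain ⟨t, a⟩ := x
  simp [GObj.of, GObj.cls]

lemma GObj.of_eq_of {t t' : T ⟶ Spec (CommRingCat.of R)} {ξ : CutClasses P t}
    {ξ' : CutClasses P t'} (ψ : SchemeHomOver t t') (hψ : ψ.1 = 𝟙 T) (h : cutMap ψ ξ' = ξ) :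
    GObj.of t ξ = GObj.of t' ξ' := by
  obtain ⟨f, hf⟩ := ψ
  obtain rfl : f = 𝟙 T := hψ
  obtain rfl : t' = t := by simpa using hf
  rw [cutMap_id _ rfl] at h
  rw [h]

lemma GObj.str_eq_of_of_eq_of {t t' : T ⟶ Spec (CommRingCat.of R)} {ξ : CutClasses P t}
    {ξ' : CutClasses P t'} (h : GObj.of t ξ = GObj.of t' ξ') : t = t' :=
  congrArg GObj.str h

lemma GObj.cutMap_eq_of_of_eq_of {t t' : T ⟶ Spec (CommRingCat.of R)} {ξ : CutClasses P t}
    {ξ' : CutClasses P t'} (h : GObj.of t ξ = GObj.of t' ξ') (ψ : SchemeHomOver t t')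
    (hψ : ψ.1 = 𝟙 T) : cutMap ψ ξ' = ξ := by
  obtain rfl := GObj.str_eq_of_of_eq_of h
  rw [cutMap_id ψ hψ]
  simp only [GObj.of, GObj.mk.injEq, heq_eq_eq, true_and] at h
  exact ((equivShrink _).injective h).symm

/-- Pullback of points of the absolute Picard presheaf. -/
noncomputable def GObj.map (f : T' ⟶ T) (x : GObj P T) : GObj P T' :=
  GObj.of (f ≫ x.str) (cutMap ⟨f, rfl⟩ x.cls)

lemma GObj.map_of (f : T' ⟶ T) (t : T ⟶ Spec (CommRingCat.of R)) (ξ : CutClasses P t) :
    GObj.map f (GObj.of t ξ) = GObj.of (f ≫ t) (cutMap ⟨f, rfl⟩ ξ) := by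
  change GObj.of (f ≫ t) (cutMap ⟨f, rfl⟩ (GObj.of t ξ).cls) = _
  rw [GObj.of_cls]

lemma GObj.exists_eq_of (x : GObj P T) :
    ∃ (t : T ⟶ Spec (CommRingCat.of R)) (ξ : CutClasses P t), x = GObj.of t ξ :=
  ⟨x.str, x.cls, (GObj.of_str_cls x).symm⟩

lemma GObj.map_id (x : GObj P T) : GObj.map (𝟙 T) x = x := by
  conv_rhs => rw [← GObj.of_str_cls x]
  exact GObj.of_eq_of ⟨𝟙 T, rfl⟩ rfl rfl

lemma GObj.map_comp (g : T'' ⟶ T') (f : T' ⟶ T) (x : GObj P T) :
    GObj.map (g ≫ f) x = GObj.map g (GObj.map f x) := by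
  obtain ⟨t, ξ, rfl⟩ := x.exists_eq_of
  rw [GObj.map_of, GObj.map_of, GObj.map_of]
  refine GObj.of_eq_of ⟨𝟙 T'', by simp⟩ rfl ?_
  rw [cutMap_comp _ _ ⟨g ≫ f, by simp⟩ rfl, cutMap_comp _ _ ⟨g ≫ f, rfl⟩ (by simp)]

variable (P) in
/-- The absolute Picard presheaf attached to the cut `P`, on all schemes. -/
noncomputable def G : Scheme.{u}ᵒᵖ ⥤ Type u where
  obj T := GObj P T.unop
  map f := TypeCat.ofHom (GObj.map f.unop)
  map_id _ := TypeCat.homEquiv.injective (funext fun x => GObj.map_id x)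
  map_comp f g := TypeCat.homEquiv.injective (funext fun x => GObj.map_comp g.unop f.unop x)

lemma G_map_apply (f : T' ⟶ T) (x : GObj P T) :
    (G P).map f.op x = GObj.map f x := rfl

end Total

section Represent

variable {P : SubPicCondition c ε}
  [hs : ∀ {T : Scheme.{u}} (t : T ⟶ Spec (CommRingCat.of R)), Small.{u} (CutClasses P t)]
  {J : Scheme.{u}} (rep : (G P).RepresentableBy J)

/-- The points of a representing scheme. -/
noncomputable def ptEquiv (T : Scheme.{u}) : (T ⟶ J) ≃ GObj P T := rep.homEquiv (X := T)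

lemma ptEquiv_comp {T T' : Scheme.{u}} (f : T' ⟶ T) (g : T ⟶ J) :
    ptEquiv rep T' (f ≫ g) = GObj.map f (ptEquiv rep T g) :=
  rep.homEquiv_comp f g

/-- The universal point of a representing scheme. -/
noncomputable def univPt : GObj P J := ptEquiv rep J (𝟙 J)

/-- The structure morphism of a representing scheme. -/
noncomputable def toBase : J ⟶ Spec (CommRingCat.of R) := (univPt rep).str

/-- The universal class on a representing scheme. -/
noncomputable def univCls : CutClasses P (toBase rep) := (univPt rep).cls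

lemma ptEquiv_eq {T : Scheme.{u}} (g : T ⟶ J) :
    ptEquiv rep T g = GObj.of (g ≫ toBase rep) (cutMap ⟨g, rfl⟩ (univCls rep)) := by
  have h := ptEquiv_comp rep g (𝟙 J)
  rw [Category.comp_id] at h
  rw [h]
  rfl

lemma ptEquiv_symm_comp_toBase {T : Scheme.{u}} (t : T ⟶ Spec (CommRingCat.of R))
    (ξ : CutClasses P t) : (ptEquiv rep T).symm (GObj.of t ξ) ≫ toBase rep = t := by
  have h := ptEquiv_eq rep ((ptEquiv rep T).symm (GObj.of t ξ))
  rw [Equiv.apply_symm_apply] at h
  exact (GObj.str_eq_of_of_eq_of h).symm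

/-- The morphisms over `Spec R` into a representing scheme are the classes in the cut. -/
noncomputable def overEquiv {T : Scheme.{u}} (t : T ⟶ Spec (CommRingCat.of R)) :
    SchemeHomOver t (toBase rep) ≃ CutClasses P t where
  toFun g := cutMap g (univCls rep)
  invFun ξ := ⟨(ptEquiv rep T).symm (GObj.of t ξ), ptEquiv_symm_comp_toBase rep t ξ⟩
  left_inv g := by
    obtain ⟨g, rfl⟩ := g
    apply Subtype.ext
    change (ptEquiv rep T).symm _ = g
    rw [Equiv.symm_apply_eq, ptEquiv_eq]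
  right_inv ξ := by
    have h := ptEquiv_eq rep ((ptEquiv rep T).symm (GObj.of t ξ))
    rw [Equiv.apply_symm_apply] at h
    have h1 := ptEquiv_symm_comp_toBase rep t ξ
    have h2 := GObj.cutMap_eq_of_of_eq_of h ⟨𝟙 T, by rw [Category.id_comp]; exact h1⟩ rfl
    rw [cutMap_comp _ _ ⟨(ptEquiv rep T).symm (GObj.of t ξ), h1⟩ (by simp)] at h2
    exact h2

lemma overEquiv_apply {T : Scheme.{u}} (t : T ⟶ Spec (CommRingCat.of R))
    (g : SchemeHomOver t (toBase rep)) : overEquiv rep t g = cutMap g (univCls rep) := rfl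

lemma overEquiv_comp {T T' : Scheme.{u}} {t : T ⟶ Spec (CommRingCat.of R)}
    {t' : T' ⟶ Spec (CommRingCat.of R)} (ψ : SchemeHomOver t' t)
    (g : SchemeHomOver t (toBase rep)) :
    overEquiv rep t' (postComp g ψ) = cutMap ψ (overEquiv rep t g) := by
  rw [overEquiv_apply, overEquiv_apply, cutMap_comp g ψ (postComp g ψ) rfl]

/-- The Poincaré bundle: a representative of the universal class. -/
noncomputable def poincare : RigidifiedLineBundle c ε (toBase rep) :=
  (univCls rep).exists_rep.choose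

lemma poincare_mem : P.P (toBase rep) (poincare rep) :=
  (univCls rep).exists_rep.choose_spec.choose

lemma univCls_eq : univCls rep = CutClasses.of (poincare rep) (poincare_mem rep) :=
  (univCls rep).exists_rep.choose_spec.choose_spec

lemma overEquiv_eq_of_iff {T : Scheme.{u}} (t : T ⟶ Spec (CommRingCat.of R))
    (g : SchemeHomOver t (toBase rep)) (M : RigidifiedLineBundle c ε t) (hM : P.P t M) :
    overEquiv rep t g = CutClasses.of M hM ↔
      Nonempty (((poincare rep).pullbackAlong g).L ≅ M.L) := by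
  rw [overEquiv_apply, univCls_eq, cutMap_of, CutClasses.of_eq_of_iff]

/-- The zero section of a representing scheme: the point of the trivial class. -/
noncomputable def zeroSection : SchemeHomOver (𝟙 (Spec (CommRingCat.of R))) (toBase rep) :=
  (overEquiv rep (𝟙 _)).symm (CutClasses.of (RigidifiedLineBundle.unit _) (P.unit_mem _))

/-- The designation carried by a scheme representing the absolute Picard presheaf of a cut. -/
noncomputable def designation : RelativePic0Designation R c where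
  P := J
  toBase := toBase rep
  zeroSection := (zeroSection rep).1
  zeroSection_toBase := (zeroSection rep).2

/-- A scheme representing the absolute Picard presheaf of the cut `P` represents the relative
sub-Picard functor of `P` in the sense of the frozen structure. -/
noncomputable def representsRelSubPic : RepresentsRelSubPic c ε P (designation rep) where
  poincare := poincare rep
  poincare_mem := poincare_mem rep
  univ t M hM := by
    refine ⟨(overEquiv rep t).symm (CutClasses.of M hM), ?_, ?_⟩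
    · exact (overEquiv_eq_of_iff rep t _ M hM).1 (Equiv.apply_symm_apply _ _)
    · intro g hg
      exact ((overEquiv rep t).eq_symm_apply).2 ((overEquiv_eq_of_iff rep t g M hM).2 hg)
  zero := (overEquiv_eq_of_iff rep (𝟙 _) (zeroSection rep) _ (P.unit_mem _)).1
    (Equiv.apply_symm_apply _ _)

@[simp] lemma designation_P : (designation rep).P = J := rfl

@[simp] lemma designation_toBase : (designation rep).toBase = toBase rep := rfl

end Represent

section Sheaf

variable (P : SubPicCondition c ε)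

/-- Zariski descent for the classes in the cut `P`, in elementary form: classes on `(T, t)` are
separated for every open cover of `T`, and compatible families of classes on the members of an
open cover glue.  The compatibility hypothesis of `glue` is stated in its strongest form (all
test schemes `W` over an overlap), so that `glue` is as weak a statement as possible. -/
structure CutDescent : Prop where
  sep : ∀ {T : Scheme.{u}} (t : T ⟶ Spec (CommRingCat.of R)) (𝒰 : Scheme.OpenCover.{u} T)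
    (ξ η : CutClasses P t),
    (∀ i, cutMap (⟨𝒰.f i, rfl⟩ : SchemeHomOver (𝒰.f i ≫ t) t) ξ = cutMap ⟨𝒰.f i, rfl⟩ η) → ξ = η
  glue : ∀ {T : Scheme.{u}} (t : T ⟶ Spec (CommRingCat.of R)) (𝒰 : Scheme.OpenCover.{u} T)
    (ξ : ∀ i, CutClasses P (𝒰.f i ≫ t)),
    (∀ (i j : 𝒰.I₀) (W : Scheme.{u}) (a : W ⟶ 𝒰.X i) (b : W ⟶ 𝒰.X j)
      (h : a ≫ 𝒰.f i = b ≫ 𝒰.f j),
      cutMap (⟨a, rfl⟩ : SchemeHomOver (a ≫ 𝒰.f i ≫ t) (𝒰.f i ≫ t)) (ξ i) =
        cutMap ⟨b, by rw [← Category.assoc, ← h, Category.assoc]⟩ (ξ j)) →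
    ∃ ξ₀ : CutClasses P t, ∀ i, cutMap ⟨𝒰.f i, rfl⟩ ξ₀ = ξ i

variable {P}

/-- Zariski descent for the classes in the cut, from its version on rigidified line bundles:
locality of the cut, separatedness and gluing for rigidified line bundles (in the cut) up to
isomorphism. -/
theorem CutDescent.of_bundles
    (hloc : ∀ {T : Scheme.{u}} (t : T ⟶ Spec (CommRingCat.of R)) (𝒰 : Scheme.OpenCover.{u} T)
      (M : RigidifiedLineBundle c ε t),
      (∀ i, P.P (𝒰.f i ≫ t) (M.pullbackAlong ⟨𝒰.f i, rfl⟩)) → P.P t M)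
    (hsep : ∀ {T : Scheme.{u}} (t : T ⟶ Spec (CommRingCat.of R)) (𝒰 : Scheme.OpenCover.{u} T)
      (M M' : RigidifiedLineBundle c ε t), P.P t M → P.P t M' →
      (∀ i, Nonempty ((M.pullbackAlong (⟨𝒰.f i, rfl⟩ : SchemeHomOver (𝒰.f i ≫ t) t)).L ≅
        (M'.pullbackAlong (⟨𝒰.f i, rfl⟩ : SchemeHomOver (𝒰.f i ≫ t) t)).L)) →
      Nonempty (M.L ≅ M'.L))
    (hglue : ∀ {T : Scheme.{u}} (t : T ⟶ Spec (CommRingCat.of R)) (𝒰 : Scheme.OpenCover.{u} T)
      (M : ∀ i, RigidifiedLineBundle c ε (𝒰.f i ≫ t)), (∀ i, P.P (𝒰.f i ≫ t) (M i)) →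
      (∀ i j, Nonempty
        (((M i).pullbackAlong (⟨pullback.fst (𝒰.f i) (𝒰.f j), rfl⟩ :
            SchemeHomOver (pullback.fst (𝒰.f i) (𝒰.f j) ≫ 𝒰.f i ≫ t) (𝒰.f i ≫ t))).L ≅
          ((M j).pullbackAlong (⟨pullback.snd (𝒰.f i) (𝒰.f j), by
            rw [← Category.assoc, ← pullback.condition, Category.assoc]⟩ :
            SchemeHomOver (pullback.fst (𝒰.f i) (𝒰.f j) ≫ 𝒰.f i ≫ t) (𝒰.f j ≫ t))).L)) →
      ∃ M₀ : RigidifiedLineBundle c ε t,
        ∀ i, Nonempty ((M₀.pullbackAlong (⟨𝒰.f i, rfl⟩ : SchemeHomOver (𝒰.f i ≫ t) t)).L ≅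
          (M i).L)) :
    CutDescent P where
  sep t 𝒰 ξ η h := by
    obtain ⟨M, hM, rfl⟩ := ξ.exists_rep
    obtain ⟨M', hM', rfl⟩ := η.exists_rep
    rw [CutClasses.of_eq_of_iff]
    refine hsep t 𝒰 M M' hM hM' fun i => ?_
    have := h i
    rwa [cutMap_of, cutMap_of, CutClasses.of_eq_of_iff] at this
  glue t 𝒰 ξ h := by
    choose M hM hξ using fun i => (ξ i).exists_rep
    obtain ⟨M₀, hM₀⟩ := hglue t 𝒰 M hM fun i j => by
      have := h i j _ (pullback.fst (𝒰.f i) (𝒰.f j)) (pullback.snd (𝒰.f i) (𝒰.f j))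
        pullback.condition
      rwa [hξ i, hξ j, cutMap_of, cutMap_of, CutClasses.of_eq_of_iff] at this
    have hP₀ : P.P t M₀ := hloc t 𝒰 M₀ fun i =>
      P.congr _ (M i) _ ⟨(hM₀ i).some.symm⟩ (hM i)
    refine ⟨CutClasses.of M₀ hP₀, fun i => ?_⟩
    rw [hξ i, cutMap_of, CutClasses.of_eq_of_iff]
    exact hM₀ i

variable
  [hs : ∀ {T : Scheme.{u}} (t : T ⟶ Spec (CommRingCat.of R)), Small.{u} (CutClasses P t)]

lemma GObj.of_eq_of_iff {T : Scheme.{u}} {t t' : T ⟶ Spec (CommRingCat.of R)}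
    {ξ : CutClasses P t} {ξ' : CutClasses P t'} :
    GObj.of t ξ = GObj.of t' ξ' ↔
      ∃ h : t = t', cutMap (⟨𝟙 T, by rw [Category.id_comp, h]⟩ : SchemeHomOver t t') ξ' = ξ :=
  ⟨fun h => ⟨GObj.str_eq_of_of_eq_of h, GObj.cutMap_eq_of_of_eq_of h _ rfl⟩,
    fun ⟨_, h⟩ => GObj.of_eq_of _ rfl h⟩

/-- Under Zariski descent for the classes in the cut, the absolute Picard presheaf is a
Zariski sheaf on the category of all schemes. -/
theorem isSheaf_G (hP : CutDescent P) : Presieve.IsSheaf Scheme.zariskiTopology.{u} (G P) := by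
  rw [Precoverage.isSheaf_toGrothendieck_iff_of_isStableUnderBaseChange_of_small.{u}]
  intro T E
  let 𝒰 : Scheme.OpenCover.{u} T := E
  change Presieve.IsSheafFor (G P) (Presieve.ofArrows 𝒰.X 𝒰.f)
  rw [Presieve.isSheafFor_arrows_iff]
  intro x hx
  -- the structure morphisms glue
  have hstr : ∀ i j, pullback.fst (𝒰.f i) (𝒰.f j) ≫ (x i).str =
      pullback.snd (𝒰.f i) (𝒰.f j) ≫ (x j).str := fun i j =>
    congrArg GObj.str (hx i j _ (pullback.fst (𝒰.f i) (𝒰.f j)) (pullback.snd _ _)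
      pullback.condition)
  let t : T ⟶ Spec (CommRingCat.of R) := 𝒰.glueMorphisms (fun i => (x i).str) hstr
  have ht : ∀ i, 𝒰.f i ≫ t = (x i).str := fun i => 𝒰.ι_glueMorphisms _ hstr i
  -- the classes, transported to the glued structure morphism
  let ξ : ∀ i, CutClasses P (𝒰.f i ≫ t) := fun i =>
    cutMap ⟨𝟙 _, by rw [Category.id_comp, ht i]⟩ (x i).cls
  have hxi : ∀ i, x i = GObj.of (𝒰.f i ≫ t) (ξ i) := by
    intro i
    conv_lhs => rw [← GObj.of_str_cls (x i)]
    refine (GObj.of_eq_of ⟨𝟙 _, by rw [Category.id_comp, ht i]⟩ rfl rfl).symm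
  have hξ : ∀ (i j : 𝒰.I₀) (W : Scheme.{u}) (a : W ⟶ 𝒰.X i) (b : W ⟶ 𝒰.X j)
      (h : a ≫ 𝒰.f i = b ≫ 𝒰.f j),
      cutMap (⟨a, rfl⟩ : SchemeHomOver (a ≫ 𝒰.f i ≫ t) (𝒰.f i ≫ t)) (ξ i) =
        cutMap ⟨b, by rw [← Category.assoc, ← h, Category.assoc]⟩ (ξ j) := by
    intro i j W a b h
    have h1 := hx i j W a b h
    rw [hxi i, hxi j] at h1
    change GObj.map a _ = GObj.map b _ at h1
    rw [GObj.map_of, GObj.map_of] at h1
    have h2 := GObj.cutMap_eq_of_of_eq_of h1
      ⟨𝟙 W, by rw [Category.id_comp, ← Category.assoc, ← h, Category.assoc]⟩ rfl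
    rw [← h2, cutMap_comp _ _ ⟨b, by rw [← Category.assoc, ← h, Category.assoc]⟩ (by simp)]
  obtain ⟨ξ₀, hξ₀⟩ := hP.glue t 𝒰 ξ hξ
  refine ⟨GObj.of t ξ₀, fun i => ?_, fun y hy => ?_⟩
  · change GObj.map (𝒰.f i) _ = _
    rw [GObj.map_of, hxi i, hξ₀ i]
  · obtain ⟨t', η, rfl⟩ := y.exists_eq_of
    have hy' : ∀ i, GObj.of (𝒰.f i ≫ t') (cutMap ⟨𝒰.f i, rfl⟩ η) = GObj.of (𝒰.f i ≫ t) (ξ i) := by
      intro i
      rw [← GObj.map_of, ← hxi i]
      exact hy i
    obtain rfl : t' = t :=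
      𝒰.hom_ext _ _ fun i => GObj.str_eq_of_of_eq_of (hy' i)
    congr 1
    refine hP.sep _ 𝒰 η ξ₀ fun i => ?_
    rw [hξ₀ i]
    have h3 := GObj.cutMap_eq_of_of_eq_of (hy' i) ⟨𝟙 _, Category.id_comp _⟩ rfl
    rw [cutMap_id _ rfl] at h3
    exact h3.symm

end Sheaf

end Fermat.Agent.JAC.Repr.Wiring10
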