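/-
Programme JAC, work package B8.0 (helper10): wiring abstract representability.

File 13: the group scheme structure on a scheme representing the absolute Picard presheaf of a
cut, from natural group structures on the classes in the cut over affine schemes (through
helper6's affine Yoneda machinery `Grp/OverAff6` and `Grp/Transport6`).
-/
import Fermat.Agent.JAC.Repr.Wiring10
import Fermat.Agent.JAC.Grp.OverAff6
import Fermat.Agent.JAC.Grp.Transport6

set_option autoImplicit false

universe u

open CategoryTheory Limits Opposite AlgebraicGeometry AlgebraicGeometry.RelPicard NeronModelInfra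
  GoodReductionJacobian

namespace Fermat.Agent.JAC.Repr.Group10

open Fermat.Agent.JAC.Repr.Wiring10 Fermat.Agent.JAC.Grp.OverAff6
  Fermat.Agent.JAC.Grp.Transport6 Fermat.Agent.JAC.Grp.DenseGrp6

variable {R : Type u} [CommRing R] {C : Scheme.{u}} {c : C ⟶ Spec (CommRingCat.of R)}
  {ε : SchemeHomOver (𝟙 (Spec (CommRingCat.of R))) c} {P : SubPicCondition c ε}
  [hs : ∀ {T : Scheme.{u}} (t : T ⟶ Spec (CommRingCat.of R)), Small.{u} (CutClasses P t)]
  {J : Scheme.{u}} (rep : (G P).RepresentableBy J)

/-- Morphisms of `Over (Spec R)` into the representing scheme are the classes in the cut. -/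
noncomputable def overHomEquiv {T : Scheme.{u}} (t : T ⟶ Spec (CommRingCat.of R)) :
    (Over.mk t ⟶ Over.mk (toBase rep)) ≃ CutClasses P t :=
  Equiv.trans
    { toFun := fun a => (⟨a.left, Over.w a⟩ : SchemeHomOver t (toBase rep))
      invFun := fun g => Over.homMk g.1 g.2
      left_inv := fun _ => rfl
      right_inv := fun _ => rfl }
    (overEquiv rep t)

lemma overHomEquiv_apply {T : Scheme.{u}} (t : T ⟶ Spec (CommRingCat.of R))
    (a : Over.mk t ⟶ Over.mk (toBase rep)) :
    overHomEquiv rep t a = overEquiv rep t ⟨a.left, Over.w a⟩ := rfl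

lemma overHomEquiv_comp {T T' : Scheme.{u}} {t : T ⟶ Spec (CommRingCat.of R)}
    {t' : T' ⟶ Spec (CommRingCat.of R)} (f : Over.mk t' ⟶ Over.mk t)
    (a : Over.mk t ⟶ Over.mk (toBase rep)) :
    overHomEquiv rep t' (f ≫ a) =
      cutMap (⟨f.left, Over.w f⟩ : SchemeHomOver t' t) (overHomEquiv rep t a) := by
  rw [overHomEquiv_apply, overHomEquiv_apply, ← overEquiv_comp]
  rfl

section Group

variable [grp : ∀ d : AffIdx (Spec (CommRingCat.of R)), Group (CutClasses P d.2)]
  (res_mul : ∀ {d d' : AffIdx (Spec (CommRingCat.of R))} (ψ : SchemeHomOver d'.2 d.2)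
    (x y : CutClasses P d.2), cutMap ψ (x * y) = cutMap ψ x * cutMap ψ y)

/-- The natural group structure on the affine points of the representing scheme. -/
noncomputable def affGroupData : AffGroupData (Over.mk (toBase rep)) :=
  pointGroupDataOfEquiv (τ := affTest (Spec (CommRingCat.of R)))
    (fun d => CutClasses P d.2) (fun d => overHomEquiv rep d.2)
    (fun {d d'} f => cutMap (⟨f.left, Over.w f⟩ : SchemeHomOver d'.2 d.2))
    (fun _ x y => res_mul _ x y) (fun f a => overHomEquiv_comp rep f a)

/-- The representing scheme is a group scheme over `Spec R`. -/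
@[instance_reducible]
noncomputable def grpObj : GrpObj (Over.mk (toBase rep)) :=
  grpObjOfAffine (affGroupData rep res_mul)

open MonObj in
/-- On affine points, the group law of the representing scheme is the group law of classes. -/
theorem overHomEquiv_mul {B : CommRingCat.{u}} (t : Spec B ⟶ Spec (CommRingCat.of R))
    (a b : Over.mk t ⟶ Over.mk (toBase rep)) :
    letI := grpObj rep res_mul
    overHomEquiv rep t (a * b) =
      @HMul.hMul _ _ _ (@instHMul _ (grp ⟨B, t⟩).toMul) (overHomEquiv rep t a)
        (overHomEquiv rep t b) := by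
  let _ := grpObj rep res_mul
  rw [grpObjOfAffine_mul_eq (affGroupData rep res_mul) a b]
  exact pointGroupDataOfEquiv_mul (τ := affTest (Spec (CommRingCat.of R)))
    (fun d => CutClasses P d.2) (fun d => overHomEquiv rep d.2)
    (fun {d d'} f => cutMap (⟨f.left, Over.w f⟩ : SchemeHomOver d'.2 d.2))
    (fun _ x y => res_mul _ x y) (fun f a => overHomEquiv_comp rep f a) (d := ⟨B, t⟩) a b

open MonObj in
theorem overHomEquiv_one {B : CommRingCat.{u}} (t : Spec B ⟶ Spec (CommRingCat.of R)) :
    letI := grpObj rep res_mul
    overHomEquiv rep t (1 : Over.mk t ⟶ Over.mk (toBase rep)) =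
      @One.one _ (grp ⟨B, t⟩).toOne := by
  let _ := grpObj rep res_mul
  rw [grpObjOfAffine_one_eq (affGroupData rep res_mul) t]
  exact pointGroupDataOfEquiv_one (τ := affTest (Spec (CommRingCat.of R)))
    (fun d => CutClasses P d.2) (fun d => overHomEquiv rep d.2)
    (fun {d d'} f => cutMap (⟨f.left, Over.w f⟩ : SchemeHomOver d'.2 d.2))
    (fun _ x y => res_mul _ x y) (fun f a => overHomEquiv_comp rep f a) ⟨B, t⟩

/-- If the groups of classes are commutative, the representing scheme is a commutative group
scheme. -/
theorem isCommMonObj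
    (hcomm : ∀ (d : AffIdx (Spec (CommRingCat.of R))) (x y : CutClasses P d.2), x * y = y * x) :
    letI := grpObj rep res_mul
    IsCommMonObj (Over.mk (toBase rep)) :=
  isCommMonObj_grpObjOfAffine (affGroupData rep res_mul) fun a b =>
    pointGroupDataOfEquiv_comm (τ := affTest (Spec (CommRingCat.of R)))
      (fun d => CutClasses P d.2) (fun d => overHomEquiv rep d.2)
      (fun {d d'} f => cutMap (⟨f.left, Over.w f⟩ : SchemeHomOver d'.2 d.2))
      (fun _ x y => res_mul _ x y) (fun f a => overHomEquiv_comp rep f a) hcomm a b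

end Group

end Fermat.Agent.JAC.Repr.Group10
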