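/-
Programme JAC, work package B8.0 (helper10): wiring abstract representability.

File 16: products.  For commutative group structures on the classes over affine bases, the
bijection `overHomEquiv` between affine points of the representing group scheme and classes
commutes with finite products; hence the Jacobi inversion hypothesis of
`Prop/JacobianProps27.jacobian_properties` can be stated on classes.
-/
import Fermat.Agent.JAC.Repr.Group10

set_option autoImplicit false

universe u

open CategoryTheory Limits Opposite AlgebraicGeometry AlgebraicGeometry.RelPicard NeronModelInfra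
  GoodReductionJacobian MonoidalCategory CartesianMonoidalCategory MonObj

namespace Fermat.Agent.JAC.Repr.GroupProd10

open Fermat.Agent.JAC.Repr.Wiring10 Fermat.Agent.JAC.Repr.Group10
  Fermat.Agent.JAC.Grp.OverAff6

variable {R : Type u} [CommRing R] {C : Scheme.{u}} {c : C ⟶ Spec (CommRingCat.of R)}
  {ε : SchemeHomOver (𝟙 (Spec (CommRingCat.of R))) c} {P : SubPicCondition c ε}
  [hs : ∀ {T : Scheme.{u}} (t : T ⟶ Spec (CommRingCat.of R)), Small.{u} (CutClasses P t)]
  {J : Scheme.{u}} (rep : (G P).RepresentableBy J)
  [cgrp : ∀ d : AffIdx (Spec (CommRingCat.of R)), CommGroup (CutClasses P d.2)]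
  (res_mul : ∀ {d d' : AffIdx (Spec (CommRingCat.of R))} (ψ : SchemeHomOver d'.2 d.2)
    (x y : CutClasses P d.2), cutMap ψ (x * y) = cutMap ψ x * cutMap ψ y)

/-- The representing scheme is a commutative group scheme. -/
theorem isCommMonObj' :
    letI := grpObj rep res_mul
    IsCommMonObj (Over.mk (toBase rep)) :=
  isCommMonObj rep res_mul fun _ x y => mul_comm x y

/-- `overHomEquiv` commutes with finite products. -/
theorem overHomEquiv_prod {B : CommRingCat.{u}} (t : Spec B ⟶ Spec (CommRingCat.of R))
    {κ : Type*} (s : Finset κ) (f : κ → (Over.mk t ⟶ Over.mk (toBase rep))) :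
    letI := grpObj rep res_mul
    haveI := isCommMonObj' rep res_mul
    overHomEquiv rep t (∏ i ∈ s, f i) =
      @Finset.prod _ _ (cgrp ⟨B, t⟩).toCommMonoid s (fun i => overHomEquiv rep t (f i)) := by
  classical
  let _ := grpObj rep res_mul
  have := isCommMonObj' rep res_mul
  induction s using Finset.induction_on with
  | empty =>
    rw [Finset.prod_empty, Finset.prod_empty]
    exact overHomEquiv_one rep res_mul t
  | insert i s hi ih =>
    rw [Finset.prod_insert hi, Finset.prod_insert hi, ← ih]
    exact overHomEquiv_mul rep res_mul t _ _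

/-- Jacobi inversion stated on classes implies Jacobi inversion stated on points. -/
theorem exists_prod_eq_of_classes {X : Over (Spec (CommRingCat.of R))}
    (a : X ⟶ Over.mk (toBase rep)) (g : ℕ) {B : CommRingCat.{u}}
    (t : Spec B ⟶ Spec (CommRingCat.of R))
    (h : ∀ ξ : CutClasses P t, ∃ y : Fin g → (Over.mk t ⟶ X),
      @Finset.prod _ _ (cgrp ⟨B, t⟩).toCommMonoid Finset.univ
        (fun i => overHomEquiv rep t (y i ≫ a)) = ξ)
    (z : Over.mk t ⟶ Over.mk (toBase rep)) :
    letI := grpObj rep res_mul
    haveI := isCommMonObj' rep res_mul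
    ∃ y : Fin g → (Over.mk t ⟶ X), ∏ i, y i ≫ a = z := by
  let _ := grpObj rep res_mul
  have := isCommMonObj' rep res_mul
  obtain ⟨y, hy⟩ := h (overHomEquiv rep t z)
  refine ⟨y, (overHomEquiv rep t).injective ?_⟩
  rw [← hy]
  exact overHomEquiv_prod rep res_mul t Finset.univ fun i => y i ≫ a

end Fermat.Agent.JAC.Repr.GroupProd10
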