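/-
Programme JAC, work package B5-core (helper10): abstract representability.

File 4: open charts.  An "open chart" of a functor `F` on rings is a ring `R` with a point
`x : F.obj R` such that `Hom(R, -) → F` is injective and "open": for every `ξ : F.obj B` the
locus of `Spec B` over which `ξ` comes from the chart is the complement of `V(I)` for an ideal `I`.
We show that the induced morphism `yoneda (Spec R) ⟶ extSheaf F` is relatively representable by
open immersions of schemes.
-/
import Fermat.Agent.JAC.Repr.Extend10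

set_option autoImplicit false

universe u

open CategoryTheory Limits Opposite AlgebraicGeometry

namespace Fermat.Agent.JAC.Repr.Chart10

open Fermat.Agent.JAC.Repr.AffineSite10 Fermat.Agent.JAC.Repr.StdCover10
  Fermat.Agent.JAC.Repr.Extend10

/-- `(R, x)` is an open chart of the functor `F` on rings. -/
structure IsOpenChart (F : CommRingCat.{u} ⥤ Type u) {R : CommRingCat.{u}} (x : F.obj R) :
    Prop where
  inj : ∀ ⦃B : CommRingCat.{u}⦄ (φ ψ : R ⟶ B), F.map φ x = F.map ψ x → φ = ψ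
  exists_ideal : ∀ (B : CommRingCat.{u}) (ξ : F.obj B), ∃ I : Ideal B,
    ∀ (B' : CommRingCat.{u}) (φ : B ⟶ B'),
      (∃ ψ : R ⟶ B', F.map ψ x = F.map φ ξ) ↔ Ideal.map φ.hom I = ⊤

variable {F : CommRingCat.{u} ⥤ Type u} {hF : IsZariskiSheafAff F}
  {R : CommRingCat.{u}} {x : F.obj R}

variable (hF x) in
/-- The point of the extended sheaf over `Spec R` given by a chart. -/
noncomputable def chartPt : Pts F hF (Spec R) := (aff F hF R).symm x

lemma aff_pull_chartPt {B : CommRingCat.{u}} (ψ : R ⟶ B) :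
    aff F hF B (pull (Spec.map ψ) (chartPt hF x)) = F.map ψ x := by
  rw [aff_pull, chartPt, Equiv.apply_symm_apply]

/-- Injectivity of a chart on points with values in arbitrary schemes. -/
lemma hom_ext_of_pull_chartPt (hx : IsOpenChart F x) {Z : Scheme.{u}} (ψ₁ ψ₂ : Z ⟶ Spec R)
    (h : pull ψ₁ (chartPt hF x) = pull ψ₂ (chartPt hF x)) : ψ₁ = ψ₂ := by
  refine Z.affineOpenCover.openCover.hom_ext _ _ fun i => ?_
  obtain ⟨φ₁, h₁⟩ := Spec.map_surjective (Z.affineOpenCover.f i ≫ ψ₁)
  obtain ⟨φ₂, h₂⟩ := Spec.map_surjective (Z.affineOpenCover.f i ≫ ψ₂)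
  change Z.affineOpenCover.f i ≫ ψ₁ = Z.affineOpenCover.f i ≫ ψ₂
  rw [← h₁, ← h₂]
  congr 1
  apply hx.inj
  rw [← aff_pull_chartPt (hF := hF), ← aff_pull_chartPt (hF := hF), h₁, h₂, pull_comp, pull_comp, h]

variable (hF x) in
/-- The pullback of `ξ` along `h` comes from the chart. -/
def Factors {T : Scheme.{u}} (ξ : Pts F hF T) {Z : Scheme.{u}} (h : Z ⟶ T) : Prop :=
  ∃ ψ : Z ⟶ Spec R, pull ψ (chartPt hF x) = pull h ξ

lemma Factors.comp {T : Scheme.{u}} {ξ : Pts F hF T} {Z Y : Scheme.{u}} {h : Z ⟶ T}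
    (hh : Factors hF x ξ h) (g : Y ⟶ Z) : Factors hF x ξ (g ≫ h) := by
  obtain ⟨ψ, hψ⟩ := hh
  exact ⟨g ≫ ψ, by rw [pull_comp, pull_comp, hψ]⟩

/-- Factoring through a chart is local on the source. -/
lemma Factors.of_openCover (hx : IsOpenChart F x) {T : Scheme.{u}} {ξ : Pts F hF T}
    {Z : Scheme.{u}} {h : Z ⟶ T} (𝒰 : Z.OpenCover)
    (H : ∀ i, Factors hF x ξ (𝒰.f i ≫ h)) : Factors hF x ξ h := by
  choose ψ hψ using H
  have hcompat : ∀ i j, pullback.fst (𝒰.f i) (𝒰.f j) ≫ ψ i =
      pullback.snd (𝒰.f i) (𝒰.f j) ≫ ψ j := by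
    intro i j
    apply hom_ext_of_pull_chartPt (hF := hF) hx
    rw [pull_comp, pull_comp, hψ, hψ, ← pull_comp, ← pull_comp, ← Category.assoc,
      ← Category.assoc, pullback.condition]
  refine ⟨𝒰.glueMorphisms ψ hcompat, ?_⟩
  refine pts_ext 𝒰 fun i => ?_
  rw [← pull_comp, ← pull_comp, 𝒰.ι_glueMorphisms, hψ]

variable (hF x) in
/-- The largest open subset of `T` over which `ξ` comes from the chart. -/
noncomputable def chartOpen {T : Scheme.{u}} (ξ : Pts F hF T) : T.Opens :=
  sSup {W : T.Opens | Factors hF x ξ W.ι}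

lemma Factors.opensRange_le {T : Scheme.{u}} {ξ : Pts F hF T} {W : Scheme.{u}} {j : W ⟶ T}
    [IsOpenImmersion j] (hj : Factors hF x ξ j) : j.opensRange ≤ chartOpen hF x ξ := by
  apply le_sSup
  have := hj.comp j.isoOpensRange.inv
  rwa [Scheme.Hom.isoOpensRange_inv_comp] at this

/-- If `h` lands in the chart open, the pullback of `ξ` along `h` comes from the chart. -/
lemma factors_of_forall_mem (hx : IsOpenChart F x) {T : Scheme.{u}} {ξ : Pts F hF T}
    {Z : Scheme.{u}} (h : Z ⟶ T) (H : ∀ z : Z, h z ∈ chartOpen hF x ξ) :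
    Factors hF x ξ h := by
  let S : Set T.Opens := {W : T.Opens | Factors hF x ξ W.ι}
  have hcov : TopologicalSpace.IsOpenCover (fun W : S => h ⁻¹ᵁ W.1) := by
    rw [TopologicalSpace.IsOpenCover, eq_top_iff]
    intro z _
    have hz := H z
    rw [chartOpen, TopologicalSpace.Opens.mem_sSup] at hz
    obtain ⟨W, hW, hzW⟩ := hz
    rw [TopologicalSpace.Opens.mem_iSup]
    exact ⟨⟨W, hW⟩, hzW⟩
  refine Factors.of_openCover hx (Z.openCoverOfIsOpenCover _ hcov) fun W => ?_
  change Factors hF x ξ ((h ⁻¹ᵁ W.1).ι ≫ h)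
  rw [← morphismRestrict_ι]
  exact W.2.comp _

lemma factors_chartOpen_ι (hx : IsOpenChart F x) {T : Scheme.{u}} (ξ : Pts F hF T) :
    Factors hF x ξ (chartOpen hF x ξ).ι :=
  factors_of_forall_mem hx _ fun z => z.2

instance isOpenImmersion_toAway (B : CommRingCat.{u}) (a : B) :
    IsOpenImmersion (Spec.map (toAway B a)) := by
  unfold toAway
  infer_instance

/-- Core of `mem_chartOpen_of_factors`, with affine charts of source and target chosen. -/
lemma mem_chartOpen_of_factors_core (hx : IsOpenChart F x) {T : Scheme.{u}} {ξ : Pts F hF T}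
    {Z : Scheme.{u}} (h : Z ⟶ T) (hh : Factors hF x ξ h)
    {B : CommRingCat.{u}} (j : Spec B ⟶ T) [IsOpenImmersion j]
    {B' : CommRingCat.{u}} (k : Spec B' ⟶ Z) (φ : B ⟶ B') (hcomm : k ≫ h = Spec.map φ ≫ j)
    (z'' : Spec B') : h (k z'') ∈ chartOpen hF x ξ := by
  obtain ⟨ψ, hψ⟩ := hh.comp k
  obtain ⟨ψ', rfl⟩ := Spec.map_surjective ψ
  obtain ⟨I, hI⟩ := hx.exists_ideal B (aff F hF B (pull j ξ))
  have h1 : F.map ψ' x = F.map φ (aff F hF B (pull j ξ)) := by
    rw [← aff_pull_chartPt (hF := hF), hψ, hcomm, pull_comp, aff_pull]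
  have hmap : Ideal.map φ.hom I = ⊤ := (hI B' φ).mp ⟨ψ', h1⟩
  have hex : ∃ a ∈ I, φ.hom a ∉ (z'' : PrimeSpectrum B').asIdeal := by
    by_contra hcon
    push Not at hcon
    have hle : Ideal.map φ.hom I ≤ (z'' : PrimeSpectrum B').asIdeal :=
      Ideal.map_le_iff_le_comap.mpr fun a ha => hcon a ha
    rw [hmap] at hle
    exact (z'' : PrimeSpectrum B').isPrime.ne_top (top_le_iff.mp hle)
  obtain ⟨a, haI, haz⟩ := hex
  have hfa : Factors hF x ξ (Spec.map (toAway B a) ≫ j) := by
    have hmapa : Ideal.map (toAway B a).hom I = ⊤ :=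
      Ideal.eq_top_of_isUnit_mem _ (Ideal.mem_map_of_mem _ haI)
        (IsLocalization.Away.algebraMap_isUnit a)
    obtain ⟨ψa, hψa⟩ := (hI _ (toAway B a)).mpr hmapa
    refine ⟨Spec.map ψa, (aff F hF _).injective ?_⟩
    rw [aff_pull_chartPt, hψa, pull_comp, aff_pull]
  refine hfa.opensRange_le ?_
  have hzz : h (k z'') = j (Spec.map φ z'') := by
    have := congrArg (fun f : Spec B' ⟶ T => f z'') hcomm
    simpa using this
  rw [hzz]
  have hmem : Spec.map φ z'' ∈ (Spec.map (toAway B a)).opensRange := by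
    have := Scheme.Hom.opensRange_localizationAway (R := B) a
    unfold toAway
    rw [this]
    exact haz
  obtain ⟨w, hw⟩ := hmem
  exact ⟨w, by rw [← hw]; simp⟩

/-- If the pullback of `ξ` along `h` comes from the chart, then `h` lands in the chart open. -/
lemma mem_chartOpen_of_factors (hx : IsOpenChart F x) {T : Scheme.{u}} {ξ : Pts F hF T}
    {Z : Scheme.{u}} (h : Z ⟶ T) (hh : Factors hF x ξ h) (z : Z) :
    h z ∈ chartOpen hF x ξ := by
  obtain ⟨t, ht⟩ := T.affineOpenCover.covers (h z)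
  have hz : z ∈ Set.range (pullback.fst h (T.affineOpenCover.f (T.affineOpenCover.idx (h z)))) := by
    rw [Scheme.Pullback.range_fst]
    exact ⟨t, ht⟩
  obtain ⟨z', hz'⟩ := hz
  obtain ⟨z'', hz''⟩ := (pullback h (T.affineOpenCover.f
    (T.affineOpenCover.idx (h z)))).affineOpenCover.covers z'
  obtain ⟨φ, hφ⟩ := Spec.map_surjective ((pullback h (T.affineOpenCover.f
    (T.affineOpenCover.idx (h z)))).affineOpenCover.f _ ≫ pullback.snd h _)
  have := mem_chartOpen_of_factors_core hx h hh (T.affineOpenCover.f (T.affineOpenCover.idx (h z)))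
    ((pullback h (T.affineOpenCover.f (T.affineOpenCover.idx (h z)))).affineOpenCover.f _ ≫
      pullback.fst h _) φ
    (by rw [hφ, Category.assoc, Category.assoc, pullback.condition]) z''
  rw [Scheme.Hom.comp_apply, hz'', hz'] at this
  exact this

variable (hF x) in
/-- The morphism of presheaves `yoneda (Spec R) ⟶ extSheaf F` attached to a chart. -/
noncomputable def chartMap : yoneda.obj (Spec R) ⟶ (extSheaf F hF).obj :=
  yonedaEquiv.symm (chartPt hF x)

lemma chartMap_app_apply {Z : Scheme.{u}} (a : Z ⟶ Spec R) :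
    (chartMap hF x).app (op Z) a = pull a (chartPt hF x) := by
  simp [chartMap, yonedaEquiv_symm_app_apply]

lemma app_apply_eq_pull {T : Scheme.{u}} (g : yoneda.obj T ⟶ (extSheaf F hF).obj)
    {Z : Scheme.{u}} (b : Z ⟶ T) :
    g.app (op Z) b = pull b (yonedaEquiv g) := by
  have := ConcreteCategory.congr_hom (g.naturality b.op) (𝟙 T)
  simpa [yonedaEquiv_apply] using this

/-- A chart of a Zariski sheaf on rings is relatively representable by open immersions. -/
theorem chartMap_isOpenImmersion (hx : IsOpenChart F x) :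
    IsOpenImmersion.presheaf (chartMap hF x) := by
  apply MorphismProperty.relative.of_exists
  intro T g
  obtain ⟨ψU, hψU⟩ := factors_chartOpen_ι hx (yonedaEquiv g)
  refine ⟨(chartOpen hF x (yonedaEquiv g)).toScheme, yoneda.map ψU,
    (chartOpen hF x (yonedaEquiv g)).ι, ?_, inferInstance⟩
  apply IsPullback.of_forall_isPullback_app
  rintro ⟨Z⟩
  rw [Types.isPullback_iff]
  refine ⟨?_, ?_, ?_⟩
  · ext c
    change (chartMap hF x).app (op Z) (c ≫ ψU) = g.app (op Z) (c ≫ _)
    rw [chartMap_app_apply, app_apply_eq_pull, pull_comp, pull_comp, hψU]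
  · rintro c₁ c₂ ⟨-, h₂⟩
    change c₁ ≫ (chartOpen hF x (yonedaEquiv g)).ι = c₂ ≫ (chartOpen hF x (yonedaEquiv g)).ι at h₂
    exact (cancel_mono _).mp h₂
  · intro (a : Z ⟶ Spec R) (b : Z ⟶ T) hab
    change (chartMap hF x).app (op Z) a = g.app (op Z) b at hab
    rw [chartMap_app_apply, app_apply_eq_pull] at hab
    have hmem : ∀ z : Z, b z ∈ chartOpen hF x (yonedaEquiv g) :=
      mem_chartOpen_of_factors hx b ⟨a, hab⟩
    have hrange : Set.range b ⊆ Set.range (chartOpen hF x (yonedaEquiv g)).ι := by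
      rintro _ ⟨z, rfl⟩
      simpa using hmem z
    refine ⟨IsOpenImmersion.lift _ b hrange, ?_, IsOpenImmersion.lift_fac _ _ _⟩
    change IsOpenImmersion.lift _ b hrange ≫ ψU = a
    apply hom_ext_of_pull_chartPt (hF := hF) hx
    rw [pull_comp, hψU, ← pull_comp, IsOpenImmersion.lift_fac, hab]

end Fermat.Agent.JAC.Repr.Chart10
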