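/-
Programme JAC, work package B5-core (helper10): abstract representability.

File 5: the main theorem.  A functor `F : CommRingCat ⥤ Type u` which is a Zariski sheaf
(for finite standard covers) and admits a family of open affine charts covering all field-valued
points is representable by a scheme `J`: there are bijections `(Spec B ⟶ J) ≃ F.obj B`, natural
in `B`, and `J` is covered by the affine charts.
-/
import Fermat.Agent.JAC.Repr.Chart10
import Mathlib.AlgebraicGeometry.ResidueField

set_option autoImplicit false

universe u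

open CategoryTheory Limits Opposite AlgebraicGeometry

namespace Fermat.Agent.JAC.Repr.Main10

open Fermat.Agent.JAC.Repr.AffineSite10 Fermat.Agent.JAC.Repr.StdCover10
  Fermat.Agent.JAC.Repr.Extend10 Fermat.Agent.JAC.Repr.Chart10

variable {F : CommRingCat.{u} ⥤ Type u} {hF : IsZariskiSheafAff F}
  {ι : Type u} {R : ι → CommRingCat.{u}} {x : ∀ β, F.obj (R β)}

/-- Every field-valued point of `F` lies in one of the charts. -/
def CoversFieldPoints (F : CommRingCat.{u} ⥤ Type u) {ι : Type u} {R : ι → CommRingCat.{u}}
    (x : ∀ β, F.obj (R β)) : Prop :=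
  ∀ (K : Type u) [Field K] (ξ : F.obj (CommRingCat.of K)),
    ∃ (β : ι) (φ : R β ⟶ CommRingCat.of K), F.map φ (x β) = ξ

/-- The chart opens cover every scheme `T` with a point `ξ` of the extended sheaf. -/
lemma iSup_chartOpen_eq_top (hx : ∀ β, IsOpenChart F (x β)) (hcov : CoversFieldPoints F x)
    {T : Scheme.{u}} (ξ : Pts F hF T) : ⨆ β, chartOpen hF (x β) ξ = ⊤ := by
  rw [eq_top_iff]
  intro t _
  obtain ⟨β, φ, hφ⟩ := hcov (T.residueField t) (aff F hF _ (pull (T.fromSpecResidueField t) ξ))
  have hfac : Factors hF (x β) ξ (T.fromSpecResidueField t) := by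
    refine ⟨Spec.map φ, (aff F hF _).injective ?_⟩
    rw [aff_pull_chartPt]
    exact hφ
  obtain ⟨z⟩ : Nonempty (Spec (T.residueField t)) := inferInstance
  have := mem_chartOpen_of_factors (hx β) _ hfac z
  rw [Scheme.fromSpecResidueField_apply] at this
  rw [TopologicalSpace.Opens.mem_iSup]
  exact ⟨β, this⟩

/-- The charts are jointly locally surjective onto the extended sheaf. -/
lemma isLocallySurjective_desc (hx : ∀ β, IsOpenChart F (x β)) (hcov : CoversFieldPoints F x) :
    Presheaf.IsLocallySurjective Scheme.zariskiTopology.{u}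
      (Sigma.desc (fun β => chartMap hF (x β))) where
  imageSieve_mem {T} ξ := by
    have hcover : TopologicalSpace.IsOpenCover (fun β => chartOpen hF (x β) ξ) :=
      iSup_chartOpen_eq_top hx hcov ξ
    refine Scheme.zariskiTopology.superset_covering ?_
      (T.openCoverOfIsOpenCover _ hcover).mem_grothendieckTopology
    rintro Y _ ⟨Z, g, _, ⟨β⟩, rfl⟩
    apply Sieve.downward_closed
    obtain ⟨ψU, hψU⟩ := factors_chartOpen_ι (hx β) ξ
    refine ⟨(Sigma.ι (fun β => yoneda.obj (Spec (R β))) β).app _ ψU, ?_⟩
    have h1 : Sigma.ι (fun β => yoneda.obj (Spec (R β))) β ≫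
        Sigma.desc (fun β => chartMap hF (x β)) = chartMap hF (x β) := Sigma.ι_desc _ _
    have h2 := congrArg (fun α : yoneda.obj (Spec (R β)) ⟶ (extSheaf F hF).obj =>
      α.app (op (chartOpen hF (x β) ξ).toScheme)) h1
    have h3 := ConcreteCategory.congr_hom h2 ψU
    simp only [NatTrans.comp_app] at h3
    refine Eq.trans ?_ (h3.trans ?_)
    · rfl
    · rw [chartMap_app_apply]
      exact hψU

/-- **Abstract representability.**  Let `F : CommRingCat ⥤ Type u` be a functor on rings which is
a Zariski sheaf for finite standard covers, and let `(R β, x β)` be a family of open charts of `F`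
covering all field-valued points.  Then `F` is represented by a scheme `J`, which is covered by
the open immersions `Spec (R β) ⟶ J` classified by the `x β`. -/
theorem exists_representing_scheme (F : CommRingCat.{u} ⥤ Type u) (hF : IsZariskiSheafAff F)
    {ι : Type u} (R : ι → CommRingCat.{u}) (x : ∀ β, F.obj (R β))
    (hx : ∀ β, IsOpenChart F (x β)) (hcov : CoversFieldPoints F x) :
    ∃ (J : Scheme.{u}) (e : ∀ B : CommRingCat.{u}, (Spec B ⟶ J) ≃ F.obj B),
      (∀ {B B' : CommRingCat.{u}} (φ : B ⟶ B') (g : Spec B ⟶ J),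
        e B' (Spec.map φ ≫ g) = F.map φ (e B g)) ∧
      (∀ β, IsOpenImmersion ((e (R β)).symm (x β))) ∧
      (∀ j : J, ∃ β, j ∈ Set.range ((e (R β)).symm (x β))) := by
  have hf : ∀ β, IsOpenImmersion.presheaf (chartMap hF (x β)) :=
    fun β => chartMap_isOpenImmersion (hx β)
  have := isLocallySurjective_desc (hF := hF) hx hcov
  let rep := Scheme.LocalRepresentability.representableBy hf
  have hchart : ∀ β, (rep.homEquiv.trans (aff F hF (R β))).symm (x β) =
      Scheme.LocalRepresentability.toGlued hf β := by
    intro β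
    rw [Equiv.symm_apply_eq, Equiv.trans_apply, eq_comm, ← Equiv.eq_symm_apply]
    have h := Scheme.LocalRepresentability.yonedaGluedToSheaf_app_toGlued hf (i := β)
    refine Eq.trans ?_ (h.trans ?_)
    · rfl
    · simp [chartMap, chartPt]
  refine ⟨(Scheme.LocalRepresentability.glueData hf).glued,
    fun B => rep.homEquiv.trans (aff F hF B), ?_, ?_, ?_⟩
  · intro B B' φ g
    rw [Equiv.trans_apply, Equiv.trans_apply, rep.homEquiv_comp]
    exact aff_pull φ _
  · intro β
    rw [hchart β]
    infer_instance
  · intro j
    obtain ⟨β, y, hy⟩ := (Scheme.LocalRepresentability.glueData hf).openCover.exists_eq j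
    exact ⟨β, by rw [hchart β]; exact ⟨y, hy⟩⟩

end Fermat.Agent.JAC.Repr.Main10
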