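/-
Programme JAC, work package B5-core (helper10): abstract representability.

File 7: the representing scheme as data, and representability on ALL schemes: the scheme `J`
represents the extension `extSheaf F` of `F` to all schemes, hence also any Zariski sheaf on
schemes whose restriction to affine schemes is isomorphic to `F`.
-/
import Fermat.Agent.JAC.Repr.Main10

set_option autoImplicit false

universe u

open CategoryTheory Limits Opposite AlgebraicGeometry

namespace Fermat.Agent.JAC.Repr.AllSchemes10

open Fermat.Agent.JAC.Repr.AffineSite10 Fermat.Agent.JAC.Repr.StdCover10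
  Fermat.Agent.JAC.Repr.Extend10 Fermat.Agent.JAC.Repr.Chart10 Fermat.Agent.JAC.Repr.Main10

/-- An atlas of open affine charts of a functor on rings, covering all field-valued points. -/
structure Atlas (F : CommRingCat.{u} ⥤ Type u) where
  /-- index type of the charts -/
  ι : Type u
  /-- the chart rings -/
  R : ι → CommRingCat.{u}
  /-- the universal points of the charts -/
  x : ∀ β, F.obj (R β)
  isOpenChart : ∀ β, IsOpenChart F (x β)
  covers : CoversFieldPoints F x

variable {F : CommRingCat.{u} ⥤ Type u} (hF : IsZariskiSheafAff F) (A : Atlas F)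

lemma Atlas.presheaf_isOpenImmersion :
    ∀ β, IsOpenImmersion.presheaf (chartMap hF (A.x β)) :=
  fun β => chartMap_isOpenImmersion (A.isOpenChart β)

/-- The scheme glued from the charts of an atlas. -/
noncomputable abbrev Atlas.scheme : Scheme.{u} :=
  (Scheme.LocalRepresentability.glueData (A.presheaf_isOpenImmersion hF)).glued

/-- The scheme of an atlas represents the extension of `F` to all schemes. -/
noncomputable def Atlas.rep : (extSheaf F hF).obj.RepresentableBy (A.scheme hF) :=
  have := isLocallySurjective_desc (hF := hF) A.isOpenChart A.covers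
  Scheme.LocalRepresentability.representableBy (A.presheaf_isOpenImmersion hF)

/-- Points of the scheme of an atlas with values in an affine scheme. -/
noncomputable def Atlas.affEquiv (B : CommRingCat.{u}) : (Spec B ⟶ A.scheme hF) ≃ F.obj B :=
  (A.rep hF).homEquiv.trans (aff F hF B)

lemma Atlas.affEquiv_comp {B B' : CommRingCat.{u}} (φ : B ⟶ B') (g : Spec B ⟶ A.scheme hF) :
    A.affEquiv hF B' (Spec.map φ ≫ g) = F.map φ (A.affEquiv hF B g) := by
  rw [Atlas.affEquiv, Atlas.affEquiv, Equiv.trans_apply, Equiv.trans_apply,
    (A.rep hF).homEquiv_comp]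
  exact aff_pull φ _

/-- The chart morphisms into the scheme of an atlas. -/
noncomputable def Atlas.chart (β : A.ι) : Spec (A.R β) ⟶ A.scheme hF :=
  (A.affEquiv hF (A.R β)).symm (A.x β)

lemma Atlas.chart_eq_toGlued (β : A.ι) :
    A.chart hF β =
      Scheme.LocalRepresentability.toGlued (A.presheaf_isOpenImmersion hF) β := by
  have := isLocallySurjective_desc (hF := hF) A.isOpenChart A.covers
  rw [Atlas.chart, Atlas.affEquiv, Equiv.symm_apply_eq, Equiv.trans_apply, eq_comm,
    ← Equiv.eq_symm_apply]
  have h := Scheme.LocalRepresentability.yonedaGluedToSheaf_app_toGlued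
    (A.presheaf_isOpenImmersion hF) (i := β)
  refine Eq.trans ?_ (h.trans ?_)
  · rfl
  · simp [chartMap, chartPt]

instance Atlas.isOpenImmersion_chart (β : A.ι) : IsOpenImmersion (A.chart hF β) := by
  rw [A.chart_eq_toGlued hF β]
  infer_instance

lemma Atlas.exists_mem_range_chart (j : A.scheme hF) : ∃ β, j ∈ Set.range (A.chart hF β) := by
  obtain ⟨β, y, hy⟩ := (Scheme.LocalRepresentability.glueData
    (A.presheaf_isOpenImmersion hF)).openCover.exists_eq j
  exact ⟨β, by rw [A.chart_eq_toGlued hF β]; exact ⟨y, hy⟩⟩

/-- The open cover of the scheme of an atlas by its charts. -/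
noncomputable def Atlas.openCover : (A.scheme hF).OpenCover :=
  (Scheme.LocalRepresentability.glueData (A.presheaf_isOpenImmersion hF)).openCover

section Transport

variable (G : Sheaf Scheme.zariskiTopology.{u} (Type u))
  (i : Scheme.Spec.{u}.op ⋙ G.obj ≅ toPresheaf F)

/-- Any Zariski sheaf on schemes whose restriction to affine schemes is `F` is isomorphic to the
extension of `F`. -/
noncomputable def extIso : (extSheaf F hF).obj ≅ G.obj :=
  Functor.IsCoverDense.Types.presheafIso (G := Scheme.Spec.{u}) (ℱ := extSheaf F hF) (ℱ' := G)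
    (extPresheafIso F hF ≪≫ i.symm)

lemma extIso_hom_app_Spec (B : CommRingCat.{u}) (ξ : Pts F hF (Spec B)) :
    i.hom.app (op (op B)) ((extIso hF G i).hom.app (op (Spec B)) ξ) = aff F hF B ξ := by
  have h := Functor.IsCoverDense.Types.appHom_restrict (G := Scheme.Spec.{u})
    (ℱ := (extSheaf F hF).obj) (ℱ' := G) (extPresheafIso F hF ≪≫ i.symm).hom
    (X := Spec B) (Y := op B) (𝟙 _) ξ
  have h' : (extIso hF G i).hom.app (op (Spec B)) ξ =
      (extPresheafIso F hF ≪≫ i.symm).hom.app (op (op B)) ξ := by
    have h2 : Functor.IsCoverDense.Types.appHom (extPresheafIso F hF ≪≫ i.symm).hom (Spec B) ξ =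
        (extPresheafIso F hF ≪≫ i.symm).hom.app (op (op B)) ξ := by
      simpa using h
    exact Eq.trans rfl h2
  rw [h']
  simp [aff]

/-- The scheme of an atlas represents every Zariski sheaf on schemes whose restriction to
affine schemes is isomorphic to `F`. -/
noncomputable def Atlas.repOfIso : G.obj.RepresentableBy (A.scheme hF) :=
  (A.rep hF).ofIso (extIso hF G i)

lemma Atlas.repOfIso_homEquiv_Spec (B : CommRingCat.{u}) (g : Spec B ⟶ A.scheme hF) :
    i.hom.app (op (op B)) ((A.repOfIso hF G i).homEquiv g) = A.affEquiv hF B g := by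
  change i.hom.app (op (op B)) ((extIso hF G i).hom.app (op (Spec B)) ((A.rep hF).homEquiv g)) = _
  rw [extIso_hom_app_Spec]
  rfl

end Transport

end Fermat.Agent.JAC.Repr.AllSchemes10
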