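/-
Programme JAC, work package B8.0 (helper10): wiring abstract representability.

File 9: the restriction of a Zariski sheaf on all schemes to rings satisfies the Zariski sheaf
condition for finite standard covers; hence an atlas for the restriction yields a scheme
representing the sheaf itself.
-/
import Fermat.Agent.JAC.Repr.AllSchemes10

set_option autoImplicit false

universe u

open CategoryTheory Limits Opposite AlgebraicGeometry

namespace Fermat.Agent.JAC.Repr.Restrict10

open Fermat.Agent.JAC.Repr.AffineSite10 Fermat.Agent.JAC.Repr.StdCover10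
  Fermat.Agent.JAC.Repr.Extend10 Fermat.Agent.JAC.Repr.Chart10 Fermat.Agent.JAC.Repr.Main10
  Fermat.Agent.JAC.Repr.AllSchemes10

/-- The restriction of a presheaf on schemes to rings: `B ↦ G (Spec B)`. -/
noncomputable def affRestrict (G : Scheme.{u}ᵒᵖ ⥤ Type u) : CommRingCat.{u} ⥤ Type u where
  obj B := G.obj (op (Spec B))
  map φ := G.map (Spec.map φ).op
  map_id B := by rw [Spec.map_id, op_id, G.map_id]
  map_comp φ ψ := by rw [Spec.map_comp, op_comp, G.map_comp]

lemma affRestrict_map_apply (G : Scheme.{u}ᵒᵖ ⥤ Type u) {B B' : CommRingCat.{u}} (φ : B ⟶ B')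
    (x : G.obj (op (Spec B))) : (affRestrict G).map φ x = G.map (Spec.map φ).op x := rfl

/-- The restriction to affine schemes of a presheaf on schemes, as a presheaf on
`CommRingCatᵒᵖ`. -/
noncomputable def affRestrictIso (G : Scheme.{u}ᵒᵖ ⥤ Type u) :
    Scheme.Spec.{u}.op ⋙ G ≅ toPresheaf (affRestrict G) :=
  NatIso.ofComponents (fun _ => Iso.refl _) (fun f => by
    ext x
    rfl)

/-- A Zariski-separated presheaf on schemes: sections over `Z` are determined by their
restrictions to all affine schemes mapping to `Z`. -/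
lemma eq_of_forall_affine {G : Scheme.{u}ᵒᵖ ⥤ Type u}
    (hG : Presieve.IsSheaf Scheme.zariskiTopology.{u} G) {Z : Scheme.{u}}
    (x y : G.obj (op Z))
    (h : ∀ (D : CommRingCat.{u}) (a : Spec D ⟶ Z), G.map a.op x = G.map a.op y) : x = y := by
  have hsep := (hG.isSheafFor (Presieve.ofArrows Z.affineCover.X Z.affineCover.f)
    Z.affineCover.mem_grothendieckTopology).isSeparatedFor
  refine hsep.ext ?_
  rintro Y f ⟨i⟩
  exact h _ _

/-- The restriction to rings of a Zariski sheaf on schemes satisfies the Zariski sheaf condition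
for finite standard covers. -/
theorem isZariskiSheafAff_affRestrict {G : Scheme.{u}ᵒᵖ ⥤ Type u}
    (hG : Presieve.IsSheaf Scheme.zariskiTopology.{u} G) : IsZariskiSheafAff (affRestrict G) := by
  intro B s hs x hx
  have hs' : Ideal.span (Set.range (fun a : s => (a.1 : B))) = ⊤ := by
    rw [Subtype.range_coe_subtype]
    exact hs
  let 𝒰 : Scheme.OpenCover.{u} (Spec B) :=
    (Scheme.affineOpenCoverOfSpanRangeEqTop (fun a : s => (a.1 : B)) hs').openCover
  have hsh := hG.isSheafFor (Presieve.ofArrows 𝒰.X 𝒰.f) 𝒰.mem_grothendieckTopology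
  rw [Presieve.isSheafFor_arrows_iff] at hsh
  have hcompat : Presieve.Arrows.Compatible G 𝒰.f x := by
    intro a b Z ga gb hab
    refine eq_of_forall_affine hG _ _ fun D e => ?_
    have h1 : ∀ (a : s) (g : Z ⟶ Spec (CommRingCat.of (Localization.Away a.1))),
        G.map e.op (G.map g.op (x a)) =
          (affRestrict G).map (Spec.preimage (e ≫ g)) (x a) := by
      intro a g
      change _ = G.map (Spec.map (Spec.preimage (e ≫ g))).op (x a)
      rw [Spec.map_preimage, op_comp, G.map_comp]
      rfl
    refine (h1 a ga).trans (Eq.trans ?_ (h1 b gb).symm)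
    apply hx
    apply Spec.map_injective
    rw [Spec.map_comp, Spec.map_comp, Spec.map_preimage, Spec.map_preimage]
    exact (Category.assoc e ga _).trans ((congrArg (e ≫ ·) hab).trans (Category.assoc e gb _).symm)
  obtain ⟨t, ht, huniq⟩ := hsh x hcompat
  exact ⟨t, ht, huniq⟩

section OpenCover

variable {F : CommRingCat.{u} ⥤ Type u} (hF : IsZariskiSheafAff F) (A : Atlas F)

lemma openCover_I₀ : (A.openCover hF).I₀ = A.ι := rfl

lemma openCover_X (β : A.ι) : (A.openCover hF).X β = Spec (A.R β) := rfl

lemma openCover_f (β : A.ι) : (A.openCover hF).f β = A.chart hF β :=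
  (A.chart_eq_toGlued hF β).symm

/-- A property of morphisms which is Zariski-local at the source holds for a morphism from the
scheme of an atlas as soon as it holds for its restrictions to the charts. -/
lemma of_charts (Q : MorphismProperty Scheme.{u}) [IsZariskiLocalAtSource Q] {Y : Scheme.{u}}
    (f : A.scheme hF ⟶ Y) (h : ∀ β, Q (A.chart hF β ≫ f)) : Q f := by
  refine IsZariskiLocalAtSource.of_openCover (A.openCover hF) fun β => ?_
  exact (congrArg (fun g => Q (g ≫ f)) (openCover_f hF A β)).mpr (h β)

end OpenCover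

section Atlas

variable {G : Scheme.{u}ᵒᵖ ⥤ Type u} (hG : Presieve.IsSheaf Scheme.zariskiTopology.{u} G)
  (A : Atlas (affRestrict G))

/-- The scheme of an atlas of the restriction to rings of a Zariski sheaf `G` on schemes. -/
noncomputable abbrev atlasScheme : Scheme.{u} := A.scheme (isZariskiSheafAff_affRestrict hG)

/-- The scheme of an atlas of the restriction to rings of a Zariski sheaf `G` on schemes
represents `G`. -/
noncomputable def atlasRep : G.RepresentableBy (atlasScheme hG A) :=
  A.repOfIso (isZariskiSheafAff_affRestrict hG) ⟨G, (isSheaf_iff_isSheaf_of_type _ _).2 hG⟩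
    (affRestrictIso G)

lemma atlasRep_homEquiv_Spec (B : CommRingCat.{u}) (g : Spec B ⟶ atlasScheme hG A) :
    (atlasRep hG A).homEquiv g = A.affEquiv (isZariskiSheafAff_affRestrict hG) B g :=
  A.repOfIso_homEquiv_Spec (isZariskiSheafAff_affRestrict hG)
    ⟨G, (isSheaf_iff_isSheaf_of_type _ _).2 hG⟩ (affRestrictIso G) B g

lemma atlasRep_homEquiv_chart (β : A.ι) :
    (atlasRep hG A).homEquiv (A.chart (isZariskiSheafAff_affRestrict hG) β) = A.x β := by
  rw [atlasRep_homEquiv_Spec, Atlas.chart, Equiv.apply_symm_apply]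

end Atlas

end Fermat.Agent.JAC.Repr.Restrict10
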