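/-
Programme JAC, work package B8.0 (helper10): wiring abstract representability.

File 10: the final assembly.  For a cut `P` of the relative Picard functor of `c : C ⟶ Spec R`
(with rigidification `ε`) such that the classes in the cut are small, satisfy Zariski descent and
such that the restriction to rings of the absolute Picard presheaf has an atlas of open affine
charts, the glued scheme carries a `RelativePic0Designation` which `RepresentsRelSubPic`.
-/
import Fermat.Agent.JAC.Repr.Wiring10
import Fermat.Agent.JAC.Repr.Restrict10

set_option autoImplicit false

universe u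

open CategoryTheory Limits Opposite AlgebraicGeometry AlgebraicGeometry.RelPicard NeronModelInfra
  GoodReductionJacobian

namespace Fermat.Agent.JAC.Repr.Jacobian10

open Fermat.Agent.JAC.Repr.StdCover10 Fermat.Agent.JAC.Repr.AllSchemes10
  Fermat.Agent.JAC.Repr.Wiring10 Fermat.Agent.JAC.Repr.Restrict10

variable {R : Type u} [CommRing R] {C : Scheme.{u}} {c : C ⟶ Spec (CommRingCat.of R)}
  {ε : SchemeHomOver (𝟙 (Spec (CommRingCat.of R))) c} {P : SubPicCondition c ε}
  [hs : ∀ {T : Scheme.{u}} (t : T ⟶ Spec (CommRingCat.of R)), Small.{u} (CutClasses P t)]
  (hP : CutDescent P) (A : Atlas (affRestrict (G P)))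

include hP in
/-- The Zariski sheaf condition on rings for the absolute Picard presheaf. -/
lemma isZariskiSheafAff : IsZariskiSheafAff (affRestrict (G P)) :=
  isZariskiSheafAff_affRestrict (isSheaf_G hP)

/-- The scheme glued from an atlas of the absolute Picard presheaf represents it. -/
noncomputable def jacRep : (G P).RepresentableBy (atlasScheme (isSheaf_G hP) A) :=
  atlasRep (isSheaf_G hP) A

/-- The designation on the scheme glued from an atlas of the absolute Picard presheaf. -/
noncomputable def jacDesignation : RelativePic0Designation R c := designation (jacRep hP A)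

/-- The scheme glued from an atlas of the absolute Picard presheaf of the cut `P` represents
the relative sub-Picard functor of `P`, in the sense of the frozen structure. -/
noncomputable def jacRepresents : RepresentsRelSubPic c ε P (jacDesignation hP A) :=
  representsRelSubPic (jacRep hP A)

lemma jacDesignation_P : (jacDesignation hP A).P = A.scheme (isZariskiSheafAff hP) := rfl

/-- The chart morphisms into the representing scheme. -/
noncomputable def jacChart (β : A.ι) : Spec (A.R β) ⟶ (jacDesignation hP A).P :=
  A.chart (isZariskiSheafAff hP) β

instance (β : A.ι) : IsOpenImmersion (jacChart hP A β) :=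
  A.isOpenImmersion_chart (isZariskiSheafAff hP) β

lemma exists_mem_range_jacChart (j : (jacDesignation hP A).P) :
    ∃ β, j ∈ Set.range (jacChart hP A β) :=
  A.exists_mem_range_chart (isZariskiSheafAff hP) j

/-- The points of the representing scheme with values in an affine scheme. -/
lemma ptEquiv_Spec (B : CommRingCat.{u}) (g : Spec B ⟶ (jacDesignation hP A).P) :
    ptEquiv (jacRep hP A) (Spec B) g = A.affEquiv (isZariskiSheafAff hP) B g :=
  atlasRep_homEquiv_Spec (isSheaf_G hP) A B g

lemma ptEquiv_jacChart (β : A.ι) :
    ptEquiv (jacRep hP A) (Spec (A.R β)) (jacChart hP A β) = A.x β :=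
  atlasRep_homEquiv_chart (isSheaf_G hP) A β

/-- The structure morphism of the representing scheme restricts on the chart `β` to the
structure morphism of the universal point of the chart. -/
lemma jacChart_toBase (β : A.ι) :
    jacChart hP A β ≫ (jacDesignation hP A).toBase = (A.x β).str := by
  have h := ptEquiv_eq (jacRep hP A) (jacChart hP A β)
  rw [ptEquiv_jacChart] at h
  exact (congrArg GObj.str h).symm

/-- The open cover of the representing scheme by its charts. -/
noncomputable def jacOpenCover : (jacDesignation hP A).P.OpenCover :=
  A.openCover (isZariskiSheafAff hP)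

/-- A property of morphisms which is Zariski-local at the source holds for the structure
morphism of the representing scheme as soon as it holds for the structure morphisms of the
charts. -/
lemma toBase_of_charts (Q : MorphismProperty Scheme.{u}) [IsZariskiLocalAtSource Q]
    (h : ∀ β, Q (A.x β).str) : Q (jacDesignation hP A).toBase := by
  refine of_charts (isZariskiSheafAff hP) A Q _ fun β => ?_
  exact (congrArg (fun g : Spec (A.R β) ⟶ Spec (CommRingCat.of R) => Q g)
    (jacChart_toBase hP A β)).mpr (h β)

include hP A in
/-- Existence form of the final assembly. -/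
theorem exists_designation_representsRelSubPic :
    ∃ D : RelativePic0Designation R c, Nonempty (RepresentsRelSubPic c ε P D) ∧
      ∃ f : ∀ β, Spec (A.R β) ⟶ D.P, (∀ β, IsOpenImmersion (f β)) ∧
        (∀ β, f β ≫ D.toBase = (A.x β).str) ∧ ∀ j : D.P, ∃ β, j ∈ Set.range (f β) :=
  ⟨jacDesignation hP A, ⟨jacRepresents hP A⟩, jacChart hP A, fun _ => inferInstance,
    jacChart_toBase hP A, exists_mem_range_jacChart hP A⟩

end Fermat.Agent.JAC.Repr.Jacobian10
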