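/-
Programme JAC, work package B8.0 (helper10): wiring abstract representability.

File 12: the infinitesimal lifting property of the structure morphism of a scheme representing
the absolute Picard presheaf of a cut, from the lifting property of the classes in the cut along
square-zero thickenings of affine schemes ("(FS)").
-/
import Fermat.Agent.JAC.Repr.Wiring10
import Fermat.Agent.JAC.Prop.FormallySmooth27

set_option autoImplicit false

universe u

open CategoryTheory Limits Opposite AlgebraicGeometry AlgebraicGeometry.RelPicard NeronModelInfra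
  GoodReductionJacobian

namespace Fermat.Agent.JAC.Repr.Lifting10

open Fermat.Agent.JAC.Repr.Wiring10 Fermat.Agent.JAC.Prop.FormallySmooth27

variable {R : Type u} [CommRing R] {C : Scheme.{u}} {c : C ⟶ Spec (CommRingCat.of R)}
  {ε : SchemeHomOver (𝟙 (Spec (CommRingCat.of R))) c} {P : SubPicCondition c ε}

/-- The structure morphism of `Spec B` for an `R`-algebra `B`. -/
noncomputable abbrev specStr (B : Type u) [CommRing B] [Algebra R B] :
    Spec (CommRingCat.of B) ⟶ Spec (CommRingCat.of R) :=
  Spec.map (CommRingCat.ofHom (algebraMap R B))

/-- The closed immersion `Spec (B ⧸ I) ⟶ Spec B` as a morphism over `Spec R`. -/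
noncomputable def specQuot (B : Type u) [CommRing B] [Algebra R B] (I : Ideal B) :
    SchemeHomOver (specStr (R := R) (B ⧸ I)) (specStr (R := R) B) :=
  ⟨Spec.map (CommRingCat.ofHom (Ideal.Quotient.mk I)), by
    rw [specStr, specStr, ← Spec.map_comp]
    rfl⟩

variable (P) in
/-- Formal smoothness of the cut `P`: classes in the cut lift along square-zero thickenings of
affine schemes over `Spec R`. -/
def CutFormallySmooth : Prop :=
  ∀ (B : Type u) [CommRing B] [Algebra R B] (I : Ideal B), I ^ 2 = ⊥ →
    Function.Surjective (cutMap (P := P) (specQuot (R := R) B I))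

variable
  [hs : ∀ {T : Scheme.{u}} (t : T ⟶ Spec (CommRingCat.of R)), Small.{u} (CutClasses P t)]
  {J : Scheme.{u}} (rep : (G P).RepresentableBy J)

/-- A scheme representing the absolute Picard presheaf of a formally smooth cut has the
infinitesimal lifting property over `Spec R`. -/
theorem hasInfinitesimalLifting_toBase (hFS : CutFormallySmooth P) :
    HasInfinitesimalLifting (toBase rep) := by
  intro B _ _ I hI a ha
  obtain ⟨ξ, hξ⟩ := hFS B I hI (overEquiv rep _ ⟨a, ha⟩)
  let b := (overEquiv rep (specStr (R := R) B)).symm ξ
  refine ⟨b.1, b.2, ?_⟩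
  have h1 : overEquiv rep _ (postComp b (specQuot B I)) = overEquiv rep _ ⟨a, ha⟩ := by
    rw [overEquiv_comp, Equiv.apply_symm_apply, hξ]
  exact congrArg Subtype.val ((overEquiv rep _).injective h1)

end Fermat.Agent.JAC.Repr.Lifting10
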