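/-
Programme JAC, work package B8.0 (helper10): wiring abstract representability.

File 18: from a model of the classes in the cut over AFFINE bases `Spec B`, `B` a `k`-algebra, by
commutative groups `A B` (natural in `B`; in the application: rigid degree-zero classes of line
diagrams, the dictionary D8), to the inputs `grp`, `res_mul` and `hFS` of
`Final/S25Assembly10.s25_of_inputs`: commutative group structures on the classes over ALL affine
schemes over `Spec k` (arbitrary structure morphisms), multiplicativity of pullback, and formal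
smoothness of the cut.
-/
import Fermat.Agent.JAC.Repr.Lifting10
import Fermat.Agent.JAC.Grp.OverAff6

set_option autoImplicit false

universe w u

open CategoryTheory Limits Opposite AlgebraicGeometry AlgebraicGeometry.RelPicard NeronModelInfra
  GoodReductionJacobian

namespace Fermat.Agent.JAC.Repr.RelModel10

open Fermat.Agent.JAC.Repr.Wiring10 Fermat.Agent.JAC.Repr.Lifting10
  Fermat.Agent.JAC.Grp.OverAff6

variable {k : Type u} [CommRing k] {C : Scheme.{u}} {c : C ⟶ Spec (CommRingCat.of k)}
  {ε : SchemeHomOver (𝟙 (Spec (CommRingCat.of k))) c}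

/-- The morphism `Spec B' ⟶ Spec B` over `Spec k` of a `k`-algebra homomorphism. -/
noncomputable def specHom {B B' : Type u} [CommRing B] [CommRing B'] [Algebra k B] [Algebra k B']
    (ψ : B →ₐ[k] B') : SchemeHomOver (specStr (R := k) B') (specStr (R := k) B) :=
  ⟨Spec.map (CommRingCat.ofHom ψ.toRingHom), by
    rw [specStr, specStr, ← Spec.map_comp]
    congr 1
    ext r
    exact ψ.commutes r⟩

lemma specQuot_eq (B : Type u) [CommRing B] [Algebra k B] (I : Ideal B) :
    specQuot (R := k) B I = specHom (Ideal.Quotient.mkₐ k I) := rfl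

variable (P : SubPicCondition c ε)

/-- A model of the classes in the cut `P` over affine `k`-schemes by commutative groups. -/
structure RelModel where
  /-- the groups -/
  A : ∀ (B : Type u) [CommRing B] [Algebra k B], Type w
  [grp : ∀ (B : Type u) [CommRing B] [Algebra k B], CommGroup (A B)]
  /-- functoriality -/
  map : ∀ {B B' : Type u} [CommRing B] [CommRing B'] [Algebra k B] [Algebra k B'],
    (B →ₐ[k] B') → (A B →* A B')
  /-- the dictionary -/
  θ : ∀ (B : Type u) [CommRing B] [Algebra k B], CutClasses P (specStr (R := k) B) ≃ A B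
  θ_map : ∀ {B B' : Type u} [CommRing B] [CommRing B'] [Algebra k B] [Algebra k B']
    (ψ : B →ₐ[k] B') (ξ : CutClasses P (specStr (R := k) B)),
    θ B' (cutMap (specHom ψ) ξ) = map ψ (θ B ξ)

attribute [instance] RelModel.grp

variable {P}

section AffIdx

/-- The `k`-algebra structure on the ring of an affine scheme over `Spec k`. -/
@[reducible]
noncomputable def algOf (b : AffIdx (Spec (CommRingCat.of k))) : Algebra k b.1 :=
  (Spec.preimage b.2).hom.toAlgebra

lemma specStr_algOf (b : AffIdx (Spec (CommRingCat.of k))) :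
    @specStr k _ b.1 _ (algOf b) = b.2 :=
  Spec.map_preimage b.2

/-- Transport of classes to the standard structure morphism. -/
noncomputable def τ (b : AffIdx (Spec (CommRingCat.of k))) :
    CutClasses P b.2 ≃ CutClasses P (@specStr k _ b.1 _ (algOf b)) where
  toFun := cutMap ⟨𝟙 _, by rw [Category.id_comp]; exact (specStr_algOf b).symm⟩
  invFun := cutMap ⟨𝟙 _, by rw [Category.id_comp]; exact specStr_algOf b⟩
  left_inv x := by
    rw [cutMap_comp _ _ ⟨𝟙 _, Category.id_comp _⟩ (by simp), cutMap_id _ rfl]
  right_inv x := by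
    rw [cutMap_comp _ _ ⟨𝟙 _, Category.id_comp _⟩ (by simp), cutMap_id _ rfl]

/-- The `k`-algebra homomorphism of a morphism of affine schemes over `Spec k`. -/
noncomputable def algHomOf {b b' : AffIdx (Spec (CommRingCat.of k))}
    (ψ : SchemeHomOver b'.2 b.2) : @AlgHom k b.1 b'.1 _ _ _ (algOf b) (algOf b') :=
  letI := algOf b
  letI := algOf b'
  { (Spec.preimage ψ.1).hom with
    commutes' := fun r => by
      have h : Spec.preimage b.2 ≫ Spec.preimage ψ.1 = Spec.preimage b'.2 := by
        apply Spec.map_injective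
        rw [Spec.map_comp, Spec.map_preimage, Spec.map_preimage, Spec.map_preimage]
        exact ψ.2
      exact congrArg (fun f => f.hom r) h }

lemma specHom_algHomOf {b b' : AffIdx (Spec (CommRingCat.of k))}
    (ψ : SchemeHomOver b'.2 b.2) :
    (@specHom k _ b.1 b'.1 _ _ (algOf b) (algOf b') (algHomOf ψ)).1 = ψ.1 :=
  Spec.map_preimage ψ.1

lemma τ_cutMap {b b' : AffIdx (Spec (CommRingCat.of k))} (ψ : SchemeHomOver b'.2 b.2)
    (x : CutClasses P b.2) :
    τ b' (cutMap ψ x) =
      cutMap (@specHom k _ b.1 b'.1 _ _ (algOf b) (algOf b') (algHomOf ψ)) (τ b x) := by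
  change cutMap _ (cutMap ψ x) = cutMap _ (cutMap _ x)
  rw [cutMap_comp _ _ ⟨ψ.1, by rw [ψ.2]; exact (specStr_algOf b').symm⟩
      (Category.id_comp _).symm,
    cutMap_comp _ _ ⟨ψ.1, by rw [ψ.2]; exact (specStr_algOf b').symm⟩
      (by rw [specHom_algHomOf]; exact (Category.comp_id _).symm)]

end AffIdx

variable (M : RelModel.{w} P)

/-- The bijection between classes over an affine scheme over `Spec k` and the model. -/
noncomputable def RelModel.equiv (b : AffIdx (Spec (CommRingCat.of k))) :
    CutClasses P b.2 ≃ @RelModel.A k _ C c ε P M b.1 _ (algOf b) :=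
  (τ b).trans (@RelModel.θ k _ C c ε P M b.1 _ (algOf b))

/-- The commutative group structure on the classes over an affine scheme over `Spec k`. -/
@[reducible]
noncomputable def RelModel.commGroup (b : AffIdx (Spec (CommRingCat.of k))) :
    CommGroup (CutClasses P b.2) :=
  (M.equiv b).commGroup

lemma RelModel.equiv_cutMap {b b' : AffIdx (Spec (CommRingCat.of k))}
    (ψ : SchemeHomOver b'.2 b.2) (x : CutClasses P b.2) :
    M.equiv b' (cutMap ψ x) =
      @RelModel.map k _ C c ε P M b.1 b'.1 _ _ (algOf b) (algOf b') (algHomOf ψ) (M.equiv b x) := by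
  change @RelModel.θ k _ C c ε P M b'.1 _ (algOf b') (τ b' (cutMap ψ x)) = _
  rw [τ_cutMap]
  exact @RelModel.θ_map k _ C c ε P M b.1 b'.1 _ _ (algOf b) (algOf b') (algHomOf ψ) (τ b x)

/-- Pullback of classes is multiplicative. -/
theorem RelModel.res_mul {b b' : AffIdx (Spec (CommRingCat.of k))} (ψ : SchemeHomOver b'.2 b.2)
    (x y : CutClasses P b.2) :
    letI := M.commGroup b
    letI := M.commGroup b'
    cutMap ψ (x * y) = cutMap ψ x * cutMap ψ y := by
  let _ := M.commGroup b
  let _ := M.commGroup b'
  apply (M.equiv b').injective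
  have hmul : ∀ (b : AffIdx (Spec (CommRingCat.of k))) (x y : CutClasses P b.2),
      M.equiv b (@HMul.hMul _ _ _ (@instHMul _ (M.commGroup b).toMul) x y) =
        M.equiv b x * M.equiv b y := fun b x y => (M.equiv b).apply_symm_apply _
  rw [M.equiv_cutMap, hmul b, map_mul, hmul b', M.equiv_cutMap, M.equiv_cutMap]

/-- Formal smoothness of the cut from the lifting property of the model. -/
theorem RelModel.cutFormallySmooth
    (hlift : ∀ (B : Type u) [CommRing B] [Algebra k B] (I : Ideal B), I ^ 2 = ⊥ →
      Function.Surjective (M.map (Ideal.Quotient.mkₐ k I))) :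
    CutFormallySmooth P := by
  intro B _ _ I hI ξ
  obtain ⟨y, hy⟩ := hlift B I hI (M.θ (B ⧸ I) ξ)
  refine ⟨(M.θ B).symm y, (M.θ (B ⧸ I)).injective ?_⟩
  rw [specQuot_eq, M.θ_map, Equiv.apply_symm_apply, hy]

end Fermat.Agent.JAC.Repr.RelModel10
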