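/-
Programme JAC, work package B8.0 (helper10): wiring abstract representability.

File 17: adapter from Zariski descent for classes of rigidified line bundles stated for families
of OPEN SUBSCHEMES `Ts i : T.Opens` with `⨆ i, Ts i = ⊤` (the shape of
`Glue/RigidDescent30.classes_separated` / `classes_glue`, helper30) to the shape
`Wiring10.CutDescent` (arbitrary open covers `𝒰 : T.OpenCover`, classes in a cut `P`) consumed
by the representability machine.
-/
import Fermat.Agent.JAC.Repr.Wiring10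

set_option autoImplicit false

universe u

open CategoryTheory Limits Opposite AlgebraicGeometry AlgebraicGeometry.RelPicard NeronModelInfra
  GoodReductionJacobian

namespace Fermat.Agent.JAC.Repr.OpensDescent10

open Fermat.Agent.JAC.Repr.Wiring10

variable {R : Type u} [CommRing R] {C : Scheme.{u}} (c : C ⟶ Spec (CommRingCat.of R))
  (ε : SchemeHomOver (𝟙 (Spec (CommRingCat.of R))) c)

/-- Zariski descent for classes of rigidified line bundles, for families of open subschemes. -/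
structure OpensDescent : Prop where
  sep : ∀ {T : Scheme.{u}} (t : T ⟶ Spec (CommRingCat.of R)) {ι : Type u} (Ts : ι → T.Opens)
    (_ : ⨆ i, Ts i = ⊤) (x y : RigidifiedLineBundle.Classes c ε t),
    (∀ i, RigidifiedLineBundle.classesMap (⟨(Ts i).ι, rfl⟩ : SchemeHomOver ((Ts i).ι ≫ t) t) x =
      RigidifiedLineBundle.classesMap (⟨(Ts i).ι, rfl⟩ : SchemeHomOver ((Ts i).ι ≫ t) t) y) →
    x = y
  glue : ∀ {T : Scheme.{u}} (t : T ⟶ Spec (CommRingCat.of R)) {ι : Type u} (Ts : ι → T.Opens)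
    (_ : ⨆ i, Ts i = ⊤) (x : ∀ i, RigidifiedLineBundle.Classes c ε ((Ts i).ι ≫ t)),
    (∀ i k, RigidifiedLineBundle.classesMap
        (⟨T.homOfLE (inf_le_left : Ts i ⊓ Ts k ≤ Ts i), by
          rw [← Category.assoc, Scheme.homOfLE_ι]⟩ :
          SchemeHomOver ((Ts i ⊓ Ts k).ι ≫ t) ((Ts i).ι ≫ t)) (x i) =
      RigidifiedLineBundle.classesMap
        (⟨T.homOfLE (inf_le_right : Ts i ⊓ Ts k ≤ Ts k), by
          rw [← Category.assoc, Scheme.homOfLE_ι]⟩ :
          SchemeHomOver ((Ts i ⊓ Ts k).ι ≫ t) ((Ts k).ι ≫ t)) (x k)) →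
    ∃ y : RigidifiedLineBundle.Classes c ε t,
      ∀ i, RigidifiedLineBundle.classesMap
        (⟨(Ts i).ι, rfl⟩ : SchemeHomOver ((Ts i).ι ≫ t) t) y = x i

variable {c ε} {P : SubPicCondition c ε}

/-- From descent for families of open subschemes and locality of the cut to `CutDescent`. -/
theorem cutDescent_of_opensDescent (h : OpensDescent c ε)
    (hloc : ∀ {T : Scheme.{u}} (t : T ⟶ Spec (CommRingCat.of R)) (𝒰 : Scheme.OpenCover.{u} T)
      (M : RigidifiedLineBundle c ε t),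
      (∀ i, P.P (𝒰.f i ≫ t) (M.pullbackAlong ⟨𝒰.f i, rfl⟩)) → P.P t M) :
    CutDescent P where
  sep {T} t 𝒰 ξ η hξη := by
    apply Subtype.ext
    refine h.sep t (fun i => (𝒰.f i).opensRange) 𝒰.iSup_opensRange ξ.1 η.1 fun i => ?_
    have h1 : ∀ ζ : CutClasses P t,
        RigidifiedLineBundle.classesMap
          (⟨(𝒰.f i).opensRange.ι, rfl⟩ : SchemeHomOver ((𝒰.f i).opensRange.ι ≫ t) t) ζ.1 =
        RigidifiedLineBundle.classesMap
          (⟨(𝒰.f i).isoOpensRange.inv, by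
            rw [← Category.assoc, Scheme.Hom.isoOpensRange_inv_comp]⟩ :
            SchemeHomOver ((𝒰.f i).opensRange.ι ≫ t) (𝒰.f i ≫ t))
          (cutMap (⟨𝒰.f i, rfl⟩ : SchemeHomOver (𝒰.f i ≫ t) t) ζ).1 := by
      intro ζ
      exact (classesMap_comp _ _ _ (Scheme.Hom.isoOpensRange_inv_comp _).symm ζ.1).symm
    rw [h1 ξ, h1 η, hξη i]
  glue {T} t 𝒰 ξ hξ := by
    -- transport the classes to the open subschemes `opensRange`
    let Ts : 𝒰.I₀ → T.Opens := fun i => (𝒰.f i).opensRange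
    let e : ∀ i, SchemeHomOver ((Ts i).ι ≫ t) (𝒰.f i ≫ t) := fun i =>
      ⟨(𝒰.f i).isoOpensRange.inv, by rw [← Category.assoc, Scheme.Hom.isoOpensRange_inv_comp]⟩
    let e' : ∀ i, SchemeHomOver (𝒰.f i ≫ t) ((Ts i).ι ≫ t) := fun i =>
      ⟨(𝒰.f i).isoOpensRange.hom, by rw [← Category.assoc, Scheme.Hom.isoOpensRange_hom_ι]⟩
    obtain ⟨y, hy⟩ := h.glue t Ts 𝒰.iSup_opensRange
      (fun i => RigidifiedLineBundle.classesMap (e i) (ξ i).1) (fun i k => by
        -- both sides are pullbacks of `ξ i`, `ξ k` to the intersection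
        have hcomm : (T.homOfLE (inf_le_left : Ts i ⊓ Ts k ≤ Ts i) ≫
            (𝒰.f i).isoOpensRange.inv) ≫ 𝒰.f i =
            (T.homOfLE (inf_le_right : Ts i ⊓ Ts k ≤ Ts k) ≫
              (𝒰.f k).isoOpensRange.inv) ≫ 𝒰.f k := by
          rw [Category.assoc, Category.assoc, Scheme.Hom.isoOpensRange_inv_comp,
            Scheme.Hom.isoOpensRange_inv_comp, Scheme.homOfLE_ι, Scheme.homOfLE_ι]
        have h1 := hξ i k _ (T.homOfLE (inf_le_left : Ts i ⊓ Ts k ≤ Ts i) ≫
            (𝒰.f i).isoOpensRange.inv) (T.homOfLE (inf_le_right : Ts i ⊓ Ts k ≤ Ts k) ≫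
              (𝒰.f k).isoOpensRange.inv) hcomm
        have hstr : (T.homOfLE (inf_le_left : Ts i ⊓ Ts k ≤ Ts i) ≫
            (𝒰.f i).isoOpensRange.inv) ≫ 𝒰.f i ≫ t = (Ts i ⊓ Ts k).ι ≫ t := by
          rw [Category.assoc, ← Category.assoc _ (𝒰.f i) t, Scheme.Hom.isoOpensRange_inv_comp,
            ← Category.assoc, Scheme.homOfLE_ι]
        have h2 := congrArg (fun ζ => (cutMap (⟨𝟙 _, by rw [Category.id_comp, hstr]⟩ :
          SchemeHomOver ((Ts i ⊓ Ts k).ι ≫ t) _) ζ).1) h1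
        simp only [cutMap] at h2
        rw [classesMap_comp _ _ ⟨T.homOfLE (inf_le_left : Ts i ⊓ Ts k ≤ Ts i) ≫
            (𝒰.f i).isoOpensRange.inv, hstr⟩ (by simp),
          classesMap_comp _ _ ⟨T.homOfLE (inf_le_right : Ts i ⊓ Ts k ≤ Ts k) ≫
            (𝒰.f k).isoOpensRange.inv, by
              rw [← Category.assoc, ← hcomm, Category.assoc]; exact hstr⟩ (by simp)] at h2
        rw [classesMap_comp _ _ ⟨T.homOfLE (inf_le_left : Ts i ⊓ Ts k ≤ Ts i) ≫
            (𝒰.f i).isoOpensRange.inv, hstr⟩ rfl,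
          classesMap_comp _ _ ⟨T.homOfLE (inf_le_right : Ts i ⊓ Ts k ≤ Ts k) ≫
            (𝒰.f k).isoOpensRange.inv, by
              rw [← Category.assoc, ← hcomm, Category.assoc]; exact hstr⟩ rfl]
        exact h2)
    -- the restrictions of the glued class to the members of the cover
    have hy' : ∀ i, RigidifiedLineBundle.classesMap
        (⟨𝒰.f i, rfl⟩ : SchemeHomOver (𝒰.f i ≫ t) t) y = (ξ i).1 := by
      intro i
      have h1 : RigidifiedLineBundle.classesMap (⟨𝒰.f i, rfl⟩ : SchemeHomOver (𝒰.f i ≫ t) t) y =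
          RigidifiedLineBundle.classesMap (e' i) (RigidifiedLineBundle.classesMap
            (⟨(Ts i).ι, rfl⟩ : SchemeHomOver ((Ts i).ι ≫ t) t) y) :=
        (classesMap_comp _ _ _ (Scheme.Hom.isoOpensRange_hom_ι _).symm y).symm
      rw [h1, hy i, classesMap_comp (e i) (e' i) ⟨𝟙 _, Category.id_comp _⟩
        (by simp [e, e']), classesMap_id _ rfl]
    -- the glued class lies in the cut
    obtain ⟨M₀, rfl⟩ := exists_clsOf_eq y
    have hP₀ : P.P t M₀ := hloc t 𝒰 M₀ fun i => by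
      have h2 := (ξ i).2
      rw [← hy' i, classesMap_clsOf, inCut_clsOf_iff] at h2
      exact h2
    exact ⟨CutClasses.of M₀ hP₀, fun i => Subtype.ext (hy' i)⟩

end Fermat.Agent.JAC.Repr.OpensDescent10
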