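/-
Programme JAC, work package B5-core (helper10): abstract representability.

File 6: the pointwise form of the chart hypotheses (section II of JAC COORD #2).  A chart
`(R, x)` of `F` is described by a predicate `W` on field-valued points of `F`, invariant under
field extensions, such that a point `ξ : F.obj B` comes from the chart iff `W` holds at all
residue fields of `B`, and such that the locus where `W` holds is open in `Spec B`.
-/
import Fermat.Agent.JAC.Repr.Main10
import Mathlib.RingTheory.LocalRing.ResidueField.Ideal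

set_option autoImplicit false

universe u

open CategoryTheory Limits Opposite AlgebraicGeometry

namespace Fermat.Agent.JAC.Repr.Pointwise10

open Fermat.Agent.JAC.Repr.StdCover10 Fermat.Agent.JAC.Repr.Chart10
  Fermat.Agent.JAC.Repr.Main10

/-- The map from a ring to the residue field at a prime, as a morphism of `CommRingCat`. -/
noncomputable def toResidue (B : CommRingCat.{u}) (p : PrimeSpectrum B) :
    B ⟶ CommRingCat.of p.asIdeal.ResidueField :=
  CommRingCat.ofHom (algebraMap B p.asIdeal.ResidueField)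

/-- Pointwise description of a chart `(R, x)` of a functor `F` on rings. -/
structure PointwiseChart (F : CommRingCat.{u} ⥤ Type u) {R : CommRingCat.{u}} (x : F.obj R) where
  /-- the predicate on field-valued points cutting out the chart -/
  W : ∀ (K : Type u) [Field K], F.obj (CommRingCat.of K) → Prop
  W_iff : ∀ {K L : Type u} [Field K] [Field L] (φ : CommRingCat.of K ⟶ CommRingCat.of L)
    (ξ : F.obj (CommRingCat.of K)), W L (F.map φ ξ) ↔ W K ξ
  inj : ∀ ⦃B : CommRingCat.{u}⦄ (φ ψ : R ⟶ B), F.map φ x = F.map ψ x → φ = ψ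
  mem_iff : ∀ (B : CommRingCat.{u}) (ξ : F.obj B), (∃ ψ : R ⟶ B, F.map ψ x = ξ) ↔
    ∀ p : PrimeSpectrum B, W p.asIdeal.ResidueField (F.map (toResidue B p) ξ)
  isOpen : ∀ (B : CommRingCat.{u}) (ξ : F.obj B),
    IsOpen {p : PrimeSpectrum B | W p.asIdeal.ResidueField (F.map (toResidue B p) ξ)}

variable {F : CommRingCat.{u} ⥤ Type u} {R : CommRingCat.{u}} {x : F.obj R}

lemma map_comp_apply' (F : CommRingCat.{u} ⥤ Type u) {A B C : CommRingCat.{u}} (f : A ⟶ B)
    (g : B ⟶ C) (ξ : F.obj A) : F.map (f ≫ g) ξ = F.map g (F.map f ξ) := by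
  rw [F.map_comp]
  rfl

/-- The predicate `W` at the residue field of `φ⁻¹(p')` of `ξ` agrees with the predicate at the
residue field of `p'` of the image of `ξ`. -/
lemma PointwiseChart.W_comap (pc : PointwiseChart F x) {B B' : CommRingCat.{u}} (φ : B ⟶ B')
    (ξ : F.obj B) (p' : PrimeSpectrum B') :
    pc.W p'.asIdeal.ResidueField (F.map (toResidue B' p') (F.map φ ξ)) ↔
      pc.W (PrimeSpectrum.comap φ.hom p').asIdeal.ResidueField
        (F.map (toResidue B (PrimeSpectrum.comap φ.hom p')) ξ) := by
  have hcomm : toResidue B (PrimeSpectrum.comap φ.hom p') ≫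
      CommRingCat.ofHom (Ideal.ResidueField.map (PrimeSpectrum.comap φ.hom p').asIdeal
        p'.asIdeal φ.hom rfl) = φ ≫ toResidue B' p' := by
    ext r
    exact Ideal.ResidueField.map_algebraMap _ _ _ _ r
  rw [← pc.W_iff (CommRingCat.ofHom (Ideal.ResidueField.map
    (PrimeSpectrum.comap φ.hom p').asIdeal p'.asIdeal φ.hom rfl))]
  have h1 : F.map (toResidue B' p') (F.map φ ξ) = F.map (φ ≫ toResidue B' p') ξ :=
    (map_comp_apply' F _ _ ξ).symm
  have h2 : F.map (CommRingCat.ofHom (Ideal.ResidueField.map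
      (PrimeSpectrum.comap φ.hom p').asIdeal p'.asIdeal φ.hom rfl))
      (F.map (toResidue B (PrimeSpectrum.comap φ.hom p')) ξ) = F.map (φ ≫ toResidue B' p') ξ := by
    rw [← hcomm]
    exact (map_comp_apply' F _ _ ξ).symm
  rw [h1, h2]

/-- A pointwise chart is an open chart. -/
theorem PointwiseChart.isOpenChart (pc : PointwiseChart F x) : IsOpenChart F x where
  inj := pc.inj
  exists_ideal B ξ := by
    set O : Set (PrimeSpectrum B) :=
      {p | pc.W p.asIdeal.ResidueField (F.map (toResidue B p) ξ)} with hO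
    have hOopen : IsOpen O := pc.isOpen B ξ
    refine ⟨PrimeSpectrum.vanishingIdeal Oᶜ, fun B' φ => ?_⟩
    have hzero : PrimeSpectrum.zeroLocus (PrimeSpectrum.vanishingIdeal Oᶜ : Set B) = Oᶜ := by
      rw [PrimeSpectrum.zeroLocus_vanishingIdeal_eq_closure]
      exact hOopen.isClosed_compl.closure_eq
    rw [pc.mem_iff B' (F.map φ ξ)]
    constructor
    · intro h
      by_contra hne
      obtain ⟨m, hm, hle⟩ := Ideal.exists_le_maximal _ hne
      let p' : PrimeSpectrum B' := ⟨m, hm.isPrime⟩
      have hp' := (pc.W_comap φ ξ p').mp (h p')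
      have hmem : PrimeSpectrum.comap φ.hom p' ∈ Oᶜ := by
        rw [← hzero, PrimeSpectrum.mem_zeroLocus]
        intro a ha
        exact hle (Ideal.mem_map_of_mem _ ha)
      exact hmem hp'
    · intro h p'
      rw [pc.W_comap φ ξ p']
      by_contra hcon
      have hmem : PrimeSpectrum.comap φ.hom p' ∈
          PrimeSpectrum.zeroLocus (PrimeSpectrum.vanishingIdeal Oᶜ : Set B) := by
        rw [hzero]
        exact hcon
      rw [PrimeSpectrum.mem_zeroLocus] at hmem
      have hle : Ideal.map φ.hom (PrimeSpectrum.vanishingIdeal Oᶜ) ≤ p'.asIdeal :=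
        Ideal.map_le_iff_le_comap.mpr hmem
      rw [h] at hle
      exact p'.isPrime.ne_top (top_le_iff.mp hle)

/-- The covering hypothesis in pointwise form implies `CoversFieldPoints`. -/
lemma coversFieldPoints_of_pointwise {ι : Type u} {R : ι → CommRingCat.{u}}
    {x : ∀ β, F.obj (R β)} (pc : ∀ β, PointwiseChart F (x β))
    (hcov : ∀ (K : Type u) [Field K] (ξ : F.obj (CommRingCat.of K)), ∃ β, (pc β).W K ξ) :
    CoversFieldPoints F x := by
  intro K _ ξ
  obtain ⟨β, hβ⟩ := hcov K ξ
  refine ⟨β, ((pc β).mem_iff (CommRingCat.of K) ξ).mpr fun p => ?_⟩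
  rw [(pc β).W_iff]
  exact hβ

/-- **Abstract representability, pointwise form** (section II of JAC COORD #2).
Hypotheses: `(Sh)` the Zariski sheaf condition, `(Ch1)`-`(Ch3)` packaged as `PointwiseChart`,
and `(Cov)`. -/
theorem exists_representing_scheme_of_pointwise (F : CommRingCat.{u} ⥤ Type u)
    (hF : IsZariskiSheafAff F) {ι : Type u} (R : ι → CommRingCat.{u}) (x : ∀ β, F.obj (R β))
    (pc : ∀ β, PointwiseChart F (x β))
    (hcov : ∀ (K : Type u) [Field K] (ξ : F.obj (CommRingCat.of K)), ∃ β, (pc β).W K ξ) :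
    ∃ (J : Scheme.{u}) (e : ∀ B : CommRingCat.{u}, (Spec B ⟶ J) ≃ F.obj B),
      (∀ {B B' : CommRingCat.{u}} (φ : B ⟶ B') (g : Spec B ⟶ J),
        e B' (Spec.map φ ≫ g) = F.map φ (e B g)) ∧
      (∀ β, IsOpenImmersion ((e (R β)).symm (x β))) ∧
      (∀ j : J, ∃ β, j ∈ Set.range ((e (R β)).symm (x β))) :=
  exists_representing_scheme F hF R x (fun β => (pc β).isOpenChart)
    (coversFieldPoints_of_pointwise pc hcov)

end Fermat.Agent.JAC.Repr.Pointwise10
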