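/-
Programme JAC, chapter Repr (S27 track, bricks C4b/C5c).  Owner: helper85.

THE DICTIONARY OF A `RelModel` OVER THE STANDARD BASES IS MULTIPLICATIVE.

`Repr/RelModel10` transports the group structures of a model `M : RelModel P` to the classes in
the cut over every affine base `b = (B, t : Spec B ⟶ Spec k)`, through the `k`-algebra structure
EXTRACTED from `t`.  For a `k`-algebra `B` given by an instance, the base is
`stdIdx B = (B, specStr B)`, the extracted structure is (propositionally) the given one, and the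
dictionary `M.θ B : CutClasses P (specStr B) ≃ M.A B` itself is multiplicative:

* `θ_mul`, `θ_one`, `θ_inv`, `θ_pow`, `θ_prod`, `θMulEquiv`;
* `map_id_apply`, `map_comp_apply`: functoriality of `M.map`, a consequence of `θ_map`.
-/
import Fermat.Agent.JAC.Repr.RelModel10

set_option autoImplicit false

universe w u

open CategoryTheory Limits Opposite AlgebraicGeometry AlgebraicGeometry.RelPicard NeronModelInfra
  GoodReductionJacobian

namespace Fermat.Agent.JAC.Repr.RelModelStd85

open Fermat.Agent.JAC.Repr.Wiring10 Fermat.Agent.JAC.Repr.Lifting10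
  Fermat.Agent.JAC.Repr.RelModel10 Fermat.Agent.JAC.Grp.OverAff6

variable {k : Type u} [CommRing k] {C : Scheme.{u}} {c : C ⟶ Spec (CommRingCat.of k)}
  {ε : SchemeHomOver (𝟙 (Spec (CommRingCat.of k))) c} {P : SubPicCondition c ε}
  (M : RelModel.{w} P)

/-! ### Functoriality of the model -/

section Functoriality

variable {B B' B'' : Type u} [CommRing B] [CommRing B'] [CommRing B''] [Algebra k B]
  [Algebra k B'] [Algebra k B'']

lemma map_id_apply (a : M.A B) : M.map (AlgHom.id k B) a = a := by
  obtain ⟨ξ, rfl⟩ := (M.θ B).surjective a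
  rw [← M.θ_map]
  congr 1
  refine cutMap_id _ ?_ ξ
  exact Spec.map_id _

lemma map_comp_apply (ψ : B →ₐ[k] B') (ψ' : B' →ₐ[k] B'') (a : M.A B) :
    M.map (ψ'.comp ψ) a = M.map ψ' (M.map ψ a) := by
  obtain ⟨ξ, rfl⟩ := (M.θ B).surjective a
  rw [← M.θ_map, ← M.θ_map, ← M.θ_map]
  congr 1
  refine (cutMap_comp _ _ _ ?_ ξ).symm
  change Spec.map (CommRingCat.ofHom (ψ'.comp ψ).toRingHom) =
    Spec.map (CommRingCat.ofHom ψ'.toRingHom) ≫ Spec.map (CommRingCat.ofHom ψ.toRingHom)
  rw [← Spec.map_comp]
  rfl

/-- If `ψ' ∘ ψ = id`, then `M.map ψ'` is a retraction of `M.map ψ`. -/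
lemma map_map_of_comp_eq_id (ψ : B →ₐ[k] B') (ψ' : B' →ₐ[k] B)
    (h : ψ'.comp ψ = AlgHom.id k B) (a : M.A B) : M.map ψ' (M.map ψ a) = a := by
  rw [← map_comp_apply, h, map_id_apply]

end Functoriality

/-! ### The dictionary over an affine base, for an arbitrary algebra structure inducing it -/

section Aux

/-- The dictionary over an affine base `y : Spec B ⟶ Spec k`, for an algebra structure on `B`
inducing `y`. -/
noncomputable def equivAux {B : CommRingCat.{u}} (y : Spec B ⟶ Spec (CommRingCat.of k))
    (i : Algebra k B) (h : @specStr k _ B _ i = y) :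
    CutClasses P y ≃ @RelModel.A k _ C c ε P M B _ i :=
  Equiv.trans
    { toFun := cutMap ⟨𝟙 _, by rw [Category.id_comp]; exact h.symm⟩
      invFun := cutMap ⟨𝟙 _, by rw [Category.id_comp]; exact h⟩
      left_inv := fun x => by
        rw [cutMap_comp _ _ ⟨𝟙 _, Category.id_comp _⟩ (by simp), cutMap_id _ rfl]
      right_inv := fun x => by
        rw [cutMap_comp _ _ ⟨𝟙 _, Category.id_comp _⟩ (by simp), cutMap_id _ rfl] }
    (@RelModel.θ k _ C c ε P M B _ i)

lemma equiv_eq_equivAux (b : AffIdx (Spec (CommRingCat.of k))) :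
    M.equiv b = equivAux M b.2 (algOf b) (specStr_algOf b) := rfl

end Aux

/-! ### Standard bases -/

section Standard

lemma equivAux_std {B : Type u} [CommRing B] (i0 : Algebra k B) [iB : Algebra k B]
    (_hi : i0 = iB) (h0 : @specStr k _ B _ i0 = specStr (R := k) B)
    (ξ : CutClasses P (specStr (R := k) B)) :
    HEq (equivAux M (B := CommRingCat.of B) (specStr (R := k) B) i0 h0 ξ) (M.θ B ξ) := by
  subst _hi
  apply heq_of_eq
  change M.θ B (cutMap _ ξ) = M.θ B ξ
  rw [cutMap_id _ rfl]

lemma θ_mulAux {B : Type u} [CommRing B] (i0 : Algebra k B) [iB : Algebra k B]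
    (_hi : i0 = iB) (h0 : @specStr k _ B _ i0 = specStr (R := k) B)
    (ξ η : CutClasses P (specStr (R := k) B)) :
    M.θ B ((equivAux M (B := CommRingCat.of B) (specStr (R := k) B) i0 h0).symm
      (equivAux M (B := CommRingCat.of B) (specStr (R := k) B) i0 h0 ξ *
        equivAux M (B := CommRingCat.of B) (specStr (R := k) B) i0 h0 η)) =
      M.θ B ξ * M.θ B η := by
  subst _hi
  have h1 : ∀ ζ : CutClasses P (specStr (R := k) B),
      equivAux M (B := CommRingCat.of B) (specStr (R := k) B) i0 h0 ζ = M.θ B ζ :=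
    fun ζ => eq_of_heq (equivAux_std M i0 rfl h0 ζ)
  have h2 : ∀ a : M.A B,
      M.θ B ((equivAux M (B := CommRingCat.of B) (specStr (R := k) B) i0 h0).symm a) = a := by
    intro a
    rw [← h1, Equiv.apply_symm_apply]
  rw [h2, h1, h1]

variable (B : Type u) [CommRing B] [iB : Algebra k B]

/-- The standard affine base attached to a `k`-algebra. -/
noncomputable abbrev stdIdx : AffIdx (Spec (CommRingCat.of k)) :=
  ⟨CommRingCat.of B, specStr (R := k) B⟩

lemma algOf_stdIdx : algOf (stdIdx (k := k) B) = iB :=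
  Algebra.algebra_ext _ _ fun r =>
    congrArg (fun f : CommRingCat.of k ⟶ CommRingCat.of B => f.hom r)
      (Spec.preimage_map (CommRingCat.ofHom (algebraMap k B)))

variable {B}

/-- **The dictionary over a standard base is multiplicative.** -/
theorem θ_mul (ξ η : CutClasses P (specStr (R := k) B)) :
    letI := M.commGroup (stdIdx B)
    M.θ B (ξ * η) = M.θ B ξ * M.θ B η :=
  θ_mulAux M (B := B) (iB := iB) (algOf (stdIdx (k := k) B)) (algOf_stdIdx B)
    (specStr_algOf (stdIdx (k := k) B)) ξ η

variable (B) in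
/-- The dictionary over a standard base, as a multiplicative equivalence. -/
noncomputable def θMulEquiv :
    letI := M.commGroup (stdIdx B)
    CutClasses P (specStr (R := k) B) ≃* M.A B :=
  letI := M.commGroup (stdIdx B)
  { M.θ B with map_mul' := fun ξ η => θ_mul M ξ η }

lemma θMulEquiv_apply (ξ : CutClasses P (specStr (R := k) B)) :
    θMulEquiv M B ξ = M.θ B ξ := rfl

theorem θ_one :
    letI := M.commGroup (stdIdx B)
    M.θ B (1 : CutClasses P (specStr (R := k) B)) = 1 := by
  let _ := M.commGroup (stdIdx B)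
  exact map_one (θMulEquiv M B)

theorem θ_inv (ξ : CutClasses P (specStr (R := k) B)) :
    letI := M.commGroup (stdIdx B)
    M.θ B ξ⁻¹ = (M.θ B ξ)⁻¹ := by
  let _ := M.commGroup (stdIdx B)
  exact map_inv (θMulEquiv M B) ξ

theorem θ_pow (ξ : CutClasses P (specStr (R := k) B)) (n : ℕ) :
    letI := M.commGroup (stdIdx B)
    M.θ B (ξ ^ n) = M.θ B ξ ^ n := by
  let _ := M.commGroup (stdIdx B)
  exact map_pow (θMulEquiv M B) ξ n

theorem θ_prod {ι : Type*} (S : Finset ι) (f : ι → CutClasses P (specStr (R := k) B)) :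
    letI := M.commGroup (stdIdx B)
    M.θ B (∏ i ∈ S, f i) = ∏ i ∈ S, M.θ B (f i) := by
  let _ := M.commGroup (stdIdx B)
  exact map_prod (θMulEquiv M B) f S

theorem θ_symm_mul (a b : M.A B) :
    letI := M.commGroup (stdIdx B)
    (M.θ B).symm (a * b) = (M.θ B).symm a * (M.θ B).symm b := by
  let _ := M.commGroup (stdIdx B)
  exact map_mul (θMulEquiv M B).symm a b

/-- The torsion classes over a standard base are the torsion elements of the model. -/
theorem natCard_torsion (n : ℕ) :
    letI := M.commGroup (stdIdx B)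
    Nat.card {ξ : CutClasses P (specStr (R := k) B) // ξ ^ n = 1} =
      Nat.card {a : M.A B // a ^ n = 1} := by
  let _ := M.commGroup (stdIdx B)
  refine Nat.card_congr ((M.θ B).subtypeEquiv fun ξ => ?_)
  rw [← θ_pow, ← θ_one M (B := B)]
  exact ((M.θ B).injective.eq_iff).symm

end Standard

end Fermat.Agent.JAC.Repr.RelModelStd85
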