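/-
Programme JAC, work package B8.0 (helper10): wiring abstract representability.

File 11: adapter between `Wiring10.G` and the official absolute sub-Picard functor
`Final.Functor36.absFunctor` (helper36): they are isomorphic, hence the Zariski sheaf property of
`absFunctor` follows from the elementary descent statement `Wiring10.CutDescent`, and its
restriction to rings satisfies the Zariski sheaf condition for finite standard covers.
-/
import Fermat.Agent.JAC.Repr.Wiring10
import Fermat.Agent.JAC.Repr.Restrict10
import Fermat.Agent.JAC.Final.Functor36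

set_option autoImplicit false

universe u

open CategoryTheory Limits Opposite AlgebraicGeometry AlgebraicGeometry.RelPicard NeronModelInfra
  GoodReductionJacobian

namespace Fermat.Agent.JAC.Repr.Adapter10

open Fermat.Agent.JAC.Repr.StdCover10 Fermat.Agent.JAC.Repr.Wiring10
  Fermat.Agent.JAC.Repr.Restrict10 Fermat.Agent.JAC.Final.Assemble36
  Fermat.Agent.JAC.Final.Functor36

variable {R : Type u} [CommRing R] {C : Scheme.{u}} {c : C ⟶ Spec (CommRingCat.of R)}
  {ε : SchemeHomOver (𝟙 (Spec (CommRingCat.of R))) c} {P : SubPicCondition c ε}
  (hsmall : ∀ {T : Scheme.{u}} (t : T ⟶ Spec (CommRingCat.of R)),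
    Small.{u} (RigidifiedLineBundle.Classes c ε t))

/-- The classes in the cut of `Wiring10` are the `P`-classes of `Assemble36`. -/
lemma cutClasses_eq {T : Scheme.{u}} (t : T ⟶ Spec (CommRingCat.of R)) :
    CutClasses P t = PClasses c ε P t := rfl

include hsmall in
lemma small_cutClasses {T : Scheme.{u}} (t : T ⟶ Spec (CommRingCat.of R)) :
    Small.{u} (CutClasses P t) :=
  small_pclasses c ε P hsmall t

/-- The absolute Picard presheaf of `Wiring10` is isomorphic to `absFunctor`. -/
noncomputable def absIso :
    haveI : ∀ {T : Scheme.{u}} (t : T ⟶ Spec (CommRingCat.of R)), Small.{u} (CutClasses P t) :=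
      fun t => small_cutClasses hsmall t
    G P ≅ absFunctor c ε P hsmall :=
  haveI : ∀ {T : Scheme.{u}} (t : T ⟶ Spec (CommRingCat.of R)), Small.{u} (CutClasses P t) :=
    fun t => small_cutClasses hsmall t
  NatIso.ofComponents
    (fun T => Equiv.toIso
      { toFun := fun x => (⟨x.str, x.shr⟩ : AbsObj c ε P hsmall T.unop)
        invFun := fun y => (⟨y.1, y.2⟩ : GObj P T.unop)
        left_inv := fun _ => rfl
        right_inv := fun _ => rfl })
    (fun f => by
      ext x
      rfl)

/-- **Target of RigidDescent.** Under Zariski descent for the classes in the cut (in the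
elementary form `CutDescent`), the absolute sub-Picard functor is a Zariski sheaf. -/
theorem isSheaf_absFunctor (hP : CutDescent P) :
    Presieve.IsSheaf Scheme.zariskiTopology.{u} (absFunctor c ε P hsmall) :=
  haveI : ∀ {T : Scheme.{u}} (t : T ⟶ Spec (CommRingCat.of R)), Small.{u} (CutClasses P t) :=
    fun t => small_cutClasses hsmall t
  Presieve.isSheaf_iso _ (absIso hsmall) (isSheaf_G hP)

theorem isSheaf_absFunctor' (hP : CutDescent P) :
    Presheaf.IsSheaf Scheme.zariskiTopology.{u} (absFunctor c ε P hsmall) :=
  (isSheaf_iff_isSheaf_of_type _ _).2 (isSheaf_absFunctor hsmall hP)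

/-- The restriction to rings of the absolute sub-Picard functor satisfies the Zariski sheaf
condition for finite standard covers. -/
theorem isZariskiSheafAff_absFunctor (hP : CutDescent P) :
    IsZariskiSheafAff (affRestrict (absFunctor c ε P hsmall)) :=
  isZariskiSheafAff_affRestrict (isSheaf_absFunctor hsmall hP)

end Fermat.Agent.JAC.Repr.Adapter10
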