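/-
Programme JAC, work package B5-core (helper10): abstract representability.

File 1: the big affine Zariski site.  `Scheme.Spec : CommRingCatᵒᵖ ⥤ Scheme` is a dense subsite
of the big Zariski site of schemes, and it is `1`-hypercover dense, so that sheaves of types on
the affine site extend (uniquely) to sheaves on all schemes.
-/
import Mathlib.AlgebraicGeometry.Sites.BigZariski
import Mathlib.AlgebraicGeometry.Sites.Representability
import Mathlib.CategoryTheory.Sites.DenseSubsite.OneHypercoverDense
import Mathlib.CategoryTheory.Sites.DenseSubsite.InducedTopology

set_option autoImplicit false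

universe u

open CategoryTheory Limits Opposite AlgebraicGeometry

namespace Fermat.Agent.JAC.Repr.AffineSite10

/-- `Spec` is cover dense for the big Zariski topology: every scheme has an affine open cover. -/
instance spec_isCoverDense :
    Scheme.Spec.{u}.IsCoverDense Scheme.zariskiTopology.{u} where
  is_cover X := by
    refine Scheme.zariskiTopology.superset_covering ?_
      (X.affineOpenCover.openCover.mem_grothendieckTopology)
    rintro Y _ ⟨Z, h, _, ⟨i⟩, rfl⟩
    exact ⟨⟨op (X.affineOpenCover.X i), h, X.affineOpenCover.f i, rfl⟩⟩

/-- The big affine Zariski topology on `CommRingCatᵒᵖ`, induced from the big Zariski topology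
on schemes along `Spec`. -/
noncomputable def affineZariskiTopology : GrothendieckTopology CommRingCat.{u}ᵒᵖ :=
  Scheme.Spec.{u}.inducedTopology Scheme.zariskiTopology.{u}

instance spec_isDenseSubsite :
    Scheme.Spec.{u}.IsDenseSubsite affineZariskiTopology.{u} Scheme.zariskiTopology.{u} := by
  unfold affineZariskiTopology
  infer_instance

lemma mem_affineZariskiTopology_iff {R : CommRingCat.{u}ᵒᵖ} (S : Sieve R) :
    S ∈ affineZariskiTopology.{u} R ↔
      S.functorPushforward Scheme.Spec.{u} ∈ Scheme.zariskiTopology.{u} (Scheme.Spec.obj R) := by
  unfold affineZariskiTopology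
  simp

instance spec_isOneHypercoverDense :
    Functor.IsOneHypercoverDense.{u} Scheme.Spec.{u} affineZariskiTopology.{u}
      Scheme.zariskiTopology.{u} :=
  Functor.IsOneHypercoverDense.of_hasPullbacks fun X =>
    ⟨X.affineOpenCover.I₀, fun i => op (X.affineOpenCover.X i), fun i => X.affineOpenCover.f i,
      X.affineOpenCover.openCover.mem_grothendieckTopology⟩

/-- Restriction of Zariski sheaves of types on schemes to the big affine Zariski site is an
equivalence of categories. -/
instance isEquivalence_restrict :
    (Scheme.Spec.{u}.sheafPushforwardContinuous (Type u) affineZariskiTopology.{u}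
      Scheme.zariskiTopology.{u}).IsEquivalence :=
  Functor.isEquivalence_of_isOneHypercoverDense.{u} _ _ _ _

end Fermat.Agent.JAC.Repr.AffineSite10
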