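/-
Programme JAC, work package B8.0 (helper10): wiring abstract representability.

File 14: from a RELATIVE atlas to an atlas of the absolute Picard presheaf.  The algebra side
naturally produces charts of the functor `(B, φ : k →+* B) ↦ {classes in the cut over
`Spec B ⟶ Spec k`}` on `k`-algebras; the abstract representability theorem consumes an atlas of
the absolute functor `B ↦ Σ t : Spec B ⟶ Spec k, {classes over t}` on all rings.  This file does
the "absolutisation" once and for all.  `k`-algebra structures are carried as ring homomorphisms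
`φ : k →+* B` (not as instances), so that no transport of instances is ever needed; for a
consumer working with instances, `letI := φ.toAlgebra` makes everything definitional.
-/
import Fermat.Agent.JAC.Repr.Wiring10
import Fermat.Agent.JAC.Repr.Restrict10
import Fermat.Agent.JAC.Repr.Pointwise10

set_option autoImplicit false

universe u

open CategoryTheory Limits Opposite AlgebraicGeometry AlgebraicGeometry.RelPicard NeronModelInfra
  GoodReductionJacobian

namespace Fermat.Agent.JAC.Repr.AlgChart10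

open Fermat.Agent.JAC.Repr.StdCover10 Fermat.Agent.JAC.Repr.Chart10
  Fermat.Agent.JAC.Repr.Main10 Fermat.Agent.JAC.Repr.Pointwise10
  Fermat.Agent.JAC.Repr.AllSchemes10 Fermat.Agent.JAC.Repr.Wiring10
  Fermat.Agent.JAC.Repr.Restrict10

variable {k : Type u} [CommRing k] {C : Scheme.{u}} {c : C ⟶ Spec (CommRingCat.of k)}
  {ε : SchemeHomOver (𝟙 (Spec (CommRingCat.of k))) c}

section Relative

variable {B B' B'' : Type u} [CommRing B] [CommRing B'] [CommRing B'']

/-- The structure morphism `Spec B ⟶ Spec k` of a ring homomorphism `φ : k →+* B`. -/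
noncomputable abbrev strOf (φ : k →+* B) : Spec (CommRingCat.of B) ⟶ Spec (CommRingCat.of k) :=
  Spec.map (CommRingCat.ofHom φ)

lemma strOf_injective {φ φ' : k →+* B} (h : strOf φ = strOf φ') : φ = φ' := by
  have := Spec.map_injective h
  exact congrArg CommRingCat.Hom.hom this

/-- The morphism over `Spec k` of a ring homomorphism compatible with the structure maps. -/
noncomputable def homOf (ψ : B →+* B') (φ : k →+* B) (φ' : k →+* B') (h : ψ.comp φ = φ') :
    SchemeHomOver (strOf φ') (strOf φ) :=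
  ⟨Spec.map (CommRingCat.ofHom ψ), by
    rw [strOf, strOf, ← Spec.map_comp, ← h]
    rfl⟩

@[simp] lemma homOf_val (ψ : B →+* B') (φ : k →+* B) (φ' : k →+* B') (h : ψ.comp φ = φ') :
    (homOf ψ φ φ' h).1 = Spec.map (CommRingCat.ofHom ψ) := rfl

variable (P : SubPicCondition c ε)

/-- The classes in the cut over `Spec B ⟶ Spec k`, for `φ : k →+* B`. -/
abbrev PB (φ : k →+* B) : Type (u + 1) := CutClasses P (strOf φ)

variable {P}

/-- Base change of classes along a ring homomorphism compatible with the structure maps. -/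
noncomputable def pbMap (ψ : B →+* B') {φ : k →+* B} {φ' : k →+* B'} (h : ψ.comp φ = φ')
    (ξ : PB P φ) : PB P φ' :=
  cutMap (homOf ψ φ φ' h) ξ

lemma pbMap_id {φ : k →+* B} (h : (RingHom.id B).comp φ = φ) (ξ : PB P φ) :
    pbMap (RingHom.id B) h ξ = ξ := by
  refine cutMap_id _ ?_ ξ
  rw [homOf_val]
  exact Spec.map_id _

lemma pbMap_comp (ψ : B →+* B') (ψ' : B' →+* B'') {φ : k →+* B} {φ' : k →+* B'}
    {φ'' : k →+* B''} (h : ψ.comp φ = φ') (h' : ψ'.comp φ' = φ'')
    (h'' : (ψ'.comp ψ).comp φ = φ'') (ξ : PB P φ) :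
    pbMap ψ' h' (pbMap ψ h ξ) = pbMap (ψ'.comp ψ) h'' ξ := by
  refine cutMap_comp _ _ _ ?_ ξ
  rw [homOf_val, homOf_val, homOf_val, ← Spec.map_comp]
  rfl

end Relative

variable (P : SubPicCondition c ε)

/-- **Relative atlas**: an atlas, by pointwise-defined open affine charts, of the functor
`(B, φ : k →+* B) ↦ PB P φ` of classes in the cut `P` on `k`-algebras. -/
structure RelAtlas where
  /-- index type of the charts -/
  ι : Type u
  /-- the chart rings -/
  R : ι → Type u
  [commRing : ∀ γ, CommRing (R γ)]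
  /-- the `k`-algebra structures of the chart rings -/
  str : ∀ γ, k →+* R γ
  /-- the universal classes -/
  x : ∀ γ, PB P (str γ)
  /-- the pointwise predicates on field-valued points -/
  W : ι → ∀ (K : Type u) [Field K] (φ : k →+* K), PB P φ → Prop
  W_iff : ∀ (γ : ι) (K L : Type u) [Field K] [Field L] (φK : k →+* K) (φL : k →+* L)
    (ψ : K →+* L) (h : ψ.comp φK = φL) (ξ : PB P φK), W γ L φL (pbMap ψ h ξ) ↔ W γ K φK ξ
  inj : ∀ (γ : ι) (B : Type u) [CommRing B] (φ ψ : R γ →+* B)
    (h : ψ.comp (str γ) = φ.comp (str γ)),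
    pbMap φ rfl (x γ) = pbMap ψ h (x γ) → φ = ψ
  mem_iff : ∀ (γ : ι) (B : Type u) [CommRing B] (φB : k →+* B) (ξ : PB P φB),
    (∃ (ψ : R γ →+* B) (h : ψ.comp (str γ) = φB), pbMap ψ h (x γ) = ξ) ↔
      ∀ p : PrimeSpectrum B, W γ p.asIdeal.ResidueField
        ((algebraMap B p.asIdeal.ResidueField).comp φB)
        (pbMap (algebraMap B p.asIdeal.ResidueField) rfl ξ)
  isOpen : ∀ (γ : ι) (B : Type u) [CommRing B] (φB : k →+* B) (ξ : PB P φB),
    IsOpen {p : PrimeSpectrum B | W γ p.asIdeal.ResidueField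
      ((algebraMap B p.asIdeal.ResidueField).comp φB)
      (pbMap (algebraMap B p.asIdeal.ResidueField) rfl ξ)}
  covers : ∀ (K : Type u) [Field K] (φ : k →+* K) (ξ : PB P φ), ∃ γ, W γ K φ ξ

attribute [instance] RelAtlas.commRing

variable {P}
  [hs : ∀ {T : Scheme.{u}} (t : T ⟶ Spec (CommRingCat.of k)), Small.{u} (CutClasses P t)]

section Absolute

variable {B B' : Type u} [CommRing B] [CommRing B']

/-- The point of the absolute Picard presheaf over `Spec B` defined by a structure map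
`φ : k →+* B` and a class over it. -/
noncomputable def absPt (φ : k →+* B) (ξ : PB P φ) :
    (affRestrict (G P)).obj (CommRingCat.of B) :=
  GObj.of (strOf φ) ξ

lemma exists_absPt (y : (affRestrict (G P)).obj (CommRingCat.of B)) :
    ∃ (φ : k →+* B) (ξ : PB P φ), y = absPt φ ξ := by
  obtain ⟨t, ξ, rfl⟩ := GObj.exists_eq_of (P := P) (T := Spec (CommRingCat.of B)) y
  obtain ⟨f, rfl⟩ := Spec.map_surjective t
  exact ⟨f.hom, ξ, rfl⟩

lemma absPt_eq_absPt_iff {φ φ' : k →+* B} {ξ : PB P φ} {ξ' : PB P φ'} :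
    absPt φ ξ = absPt φ' ξ' ↔ ∃ h : φ = φ', pbMap (RingHom.id B) (by rw [h]; rfl) ξ = ξ' := by
  constructor
  · intro h
    obtain rfl : φ = φ' := strOf_injective (GObj.str_eq_of_of_eq_of h)
    refine ⟨rfl, ?_⟩
    rw [pbMap_id]
    have := GObj.cutMap_eq_of_of_eq_of h ⟨𝟙 _, Category.id_comp _⟩ rfl
    rw [cutMap_id _ rfl] at this
    exact this.symm
  · rintro ⟨rfl, h⟩
    rw [pbMap_id] at h
    rw [h]

lemma absPt_injective {φ : k →+* B} {ξ ξ' : PB P φ} (h : absPt φ ξ = absPt φ ξ') : ξ = ξ' := by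
  obtain ⟨_, h'⟩ := absPt_eq_absPt_iff.1 h
  rwa [pbMap_id] at h'

lemma map_absPt (ψ : B →+* B') (φ : k →+* B) (ξ : PB P φ) :
    (affRestrict (G P)).map (CommRingCat.ofHom ψ) (absPt φ ξ) =
      absPt (ψ.comp φ) (pbMap ψ rfl ξ) := by
  change GObj.map (Spec.map (CommRingCat.ofHom ψ)) (GObj.of (strOf φ) ξ) = _
  rw [GObj.map_of]
  refine GObj.of_eq_of ⟨𝟙 _, ?_⟩ rfl ?_
  · rw [Category.id_comp, strOf, strOf, ← Spec.map_comp]
    rfl
  · rw [pbMap, cutMap_comp _ _ ⟨Spec.map (CommRingCat.ofHom ψ), rfl⟩ (by simp)]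

end Absolute

namespace RelAtlas

variable (RA : RelAtlas P)

/-- The absolute predicate attached to the chart `γ`. -/
def absW (γ : RA.ι) (K : Type u) [Field K]
    (y : (affRestrict (G P)).obj (CommRingCat.of K)) : Prop :=
  ∃ (φ : k →+* K) (ξ : PB P φ), y = absPt φ ξ ∧ RA.W γ K φ ξ

lemma absW_absPt (γ : RA.ι) (K : Type u) [Field K] (φ : k →+* K) (ξ : PB P φ) :
    RA.absW γ K (absPt φ ξ) ↔ RA.W γ K φ ξ := by
  constructor
  · rintro ⟨φ', ξ', h, hW⟩
    obtain ⟨rfl, h'⟩ := absPt_eq_absPt_iff.1 h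
    rw [pbMap_id] at h'
    rwa [h']
  · exact fun h => ⟨φ, ξ, rfl, h⟩

/-- The universal point of the chart `γ` in the absolute Picard presheaf. -/
noncomputable def absX (γ : RA.ι) : (affRestrict (G P)).obj (CommRingCat.of (RA.R γ)) :=
  absPt (RA.str γ) (RA.x γ)

/-- The charts of a relative atlas are pointwise charts of the absolute Picard presheaf. -/
noncomputable def pointwiseChart (γ : RA.ι) :
    PointwiseChart (affRestrict (G P)) (RA.absX γ) where
  W K _ y := RA.absW γ K y
  W_iff {K L} _ _ φ y := by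
    obtain ⟨φK, ξ, rfl⟩ := exists_absPt y
    have h := map_absPt φ.hom φK ξ
    rw [CommRingCat.ofHom_hom] at h
    rw [h, absW_absPt, absW_absPt]
    exact RA.W_iff γ K L φK _ φ.hom rfl ξ
  inj B φ ψ h := by
    have h1 := map_absPt (P := P) φ.hom (RA.str γ) (RA.x γ)
    have h2 := map_absPt (P := P) ψ.hom (RA.str γ) (RA.x γ)
    rw [CommRingCat.ofHom_hom] at h1 h2
    rw [absX, h1, h2] at h
    obtain ⟨h3, h4⟩ := absPt_eq_absPt_iff.1 h
    apply CommRingCat.hom_ext
    refine (RA.inj γ B ψ.hom φ.hom h3 ?_).symm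
    rw [← h4, pbMap_comp _ _ rfl _ h3]
    rfl
  mem_iff B y := by
    obtain ⟨φB, ξ, rfl⟩ := exists_absPt (B := B) y
    have key : (∃ ψ : CommRingCat.of (RA.R γ) ⟶ B,
        (affRestrict (G P)).map ψ (RA.absX γ) = absPt φB ξ) ↔
        ∃ (ψ : RA.R γ →+* B) (h : ψ.comp (RA.str γ) = φB), pbMap ψ h (RA.x γ) = ξ := by
      constructor
      · rintro ⟨ψ, hψ⟩
        have h1 := map_absPt (P := P) ψ.hom (RA.str γ) (RA.x γ)
        rw [CommRingCat.ofHom_hom] at h1
        rw [absX, h1] at hψ
        obtain ⟨h3, h4⟩ := absPt_eq_absPt_iff.1 hψ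
        refine ⟨ψ.hom, h3, ?_⟩
        rw [← h4, pbMap_comp _ _ rfl _ h3]
        rfl
      · rintro ⟨ψ, rfl, rfl⟩
        exact ⟨CommRingCat.ofHom ψ, map_absPt ψ (RA.str γ) (RA.x γ)⟩
    rw [key, RA.mem_iff γ B φB ξ]
    refine forall_congr' fun p => ?_
    have h := map_absPt (P := P) (algebraMap B p.asIdeal.ResidueField) φB ξ
    rw [toResidue, h, absW_absPt]
  isOpen B y := by
    obtain ⟨φB, ξ, rfl⟩ := exists_absPt (B := B) y
    convert RA.isOpen γ B φB ξ using 2
    ext p
    have h := map_absPt (P := P) (algebraMap B p.asIdeal.ResidueField) φB ξ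
    rw [toResidue, h, absW_absPt]

/-- **Absolutisation.** A relative atlas of the classes in the cut `P` on `k`-algebras yields an
atlas of the restriction to rings of the absolute Picard presheaf. -/
noncomputable def atlas : Atlas (affRestrict (G P)) where
  ι := RA.ι
  R γ := CommRingCat.of (RA.R γ)
  x γ := RA.absX γ
  isOpenChart γ := (RA.pointwiseChart γ).isOpenChart
  covers := coversFieldPoints_of_pointwise RA.pointwiseChart fun K _ y => by
    obtain ⟨φ, ξ, rfl⟩ := exists_absPt y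
    obtain ⟨γ, hγ⟩ := RA.covers K φ ξ
    exact ⟨γ, (RA.absW_absPt γ K φ ξ).2 hγ⟩

@[simp] lemma atlas_ι : RA.atlas.ι = RA.ι := rfl

@[simp] lemma atlas_R (γ : RA.ι) : RA.atlas.R γ = CommRingCat.of (RA.R γ) := rfl

lemma atlas_x (γ : RA.ι) : RA.atlas.x γ = absPt (RA.str γ) (RA.x γ) := rfl

lemma atlas_x_str (γ : RA.ι) : (RA.atlas.x γ).str = strOf (RA.str γ) := rfl

end RelAtlas

end Fermat.Agent.JAC.Repr.AlgChart10
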