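/-
Programme JAC, work package B5-core (helper10): abstract representability.

File 2: standard covers.  A functor `F : CommRingCat ⥤ Type u` which satisfies the sheaf
condition for all finite standard covers `B → B_{f}` (`f ∈ s`, `s` a finite set spanning the
unit ideal) defines a sheaf on the big affine Zariski site.
-/
import Fermat.Agent.JAC.Repr.AffineSite10
import Mathlib.CategoryTheory.Sites.Coverage
import Mathlib.AlgebraicGeometry.AffineScheme

set_option autoImplicit false

universe u

open CategoryTheory Limits Opposite AlgebraicGeometry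

namespace Fermat.Agent.JAC.Repr.StdCover10

open Fermat.Agent.JAC.Repr.AffineSite10

/-- The localisation map `B ⟶ B_f` as a morphism of `CommRingCat`. -/
noncomputable def toAway (B : CommRingCat.{u}) (f : B) :
    B ⟶ CommRingCat.of (Localization.Away f) :=
  CommRingCat.ofHom (algebraMap B (Localization.Away f))

/-- The standard presieve on `op B` attached to a finite set `s` of elements of `B`:
the arrows `op B_f ⟶ op B` for `f ∈ s`. -/
noncomputable def stdPresieve (B : CommRingCat.{u}) (s : Finset B) : Presieve (op B) :=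
  Presieve.ofArrows (fun a : s => op (CommRingCat.of (Localization.Away a.1)))
    (fun a : s => (toAway B a.1).op)

/-- The presheaf on `CommRingCatᵒᵖ` attached to a covariant functor on rings. -/
abbrev toPresheaf (F : CommRingCat.{u} ⥤ Type u) : CommRingCat.{u}ᵒᵖᵒᵖ ⥤ Type u :=
  unopUnop _ ⋙ F

/-- The Zariski sheaf condition for a functor on rings, for finite standard covers.
The compatibility hypothesis on the family is stated in its strongest (universal) form, so that
this condition is as easy as possible to verify; see `IsZariskiSheafAff.mk'` for the version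
where compatibility is only assumed on the double localisations `B_{ab}`. -/
def IsZariskiSheafAff (F : CommRingCat.{u} ⥤ Type u) : Prop :=
  ∀ (B : CommRingCat.{u}) (s : Finset B), Ideal.span (s : Set B) = ⊤ →
    ∀ x : ∀ a : s, F.obj (CommRingCat.of (Localization.Away a.1)),
      (∀ (a b : s) (C : CommRingCat.{u}) (g : CommRingCat.of (Localization.Away a.1) ⟶ C)
        (h : CommRingCat.of (Localization.Away b.1) ⟶ C),
        toAway B a.1 ≫ g = toAway B b.1 ≫ h → F.map g (x a) = F.map h (x b)) →
      ∃! t : F.obj B, ∀ a : s, F.map (toAway B a.1) t = x a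

/-- The coverage on `CommRingCatᵒᵖ` given by finite standard covers. -/
noncomputable def stdCoverage : Coverage CommRingCat.{u}ᵒᵖ where
  coverings X := {R | ∃ s : Finset X.unop, Ideal.span (s : Set X.unop) = ⊤ ∧
    R = stdPresieve X.unop s}
  pullback := by
    classical
    rintro X Y f R ⟨s, hs, rfl⟩
    refine ⟨stdPresieve Y.unop (s.image f.unop.hom), ⟨_, ?_, rfl⟩, ?_⟩
    · rw [Finset.coe_image, ← Ideal.map_span, hs, Ideal.map_top]
    · rintro Z g ⟨⟨b, hb⟩⟩
      obtain ⟨a, ha, rfl⟩ := Finset.mem_image.mp hb
      refine ⟨op (CommRingCat.of (Localization.Away a)),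
        (CommRingCat.ofHom (IsLocalization.Away.map (Localization.Away a)
          (Localization.Away (f.unop.hom a)) f.unop.hom a)).op,
        (toAway X.unop a).op, ⟨(⟨a, ha⟩ : s)⟩, ?_⟩
      apply Quiver.Hom.unop_inj
      ext x
      simp [toAway, IsLocalization.Away.map]

end Fermat.Agent.JAC.Repr.StdCover10

namespace Fermat.Agent.JAC.Repr.StdCover10

open Fermat.Agent.JAC.Repr.AffineSite10

/-- If the image under `Spec` of a sieve `S` on `op B` is a Zariski covering sieve of `Spec B`,
then for every prime `x` of `B` there is `a ∉ x` such that the localisation arrow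
`op B_a ⟶ op B` belongs to `S`. -/
lemma exists_away_mem_of_mem {B : CommRingCat.{u}} (S : Sieve (op B))
    (hS : S ∈ affineZariskiTopology.{u} (op B)) (x : PrimeSpectrum B) :
    ∃ a : B, a ∉ x.asIdeal ∧ S (toAway B a).op := by
  rw [mem_affineZariskiTopology_iff, Scheme.mem_grothendieckTopology_iff] at hS
  obtain ⟨𝒰, h𝒰⟩ := hS
  obtain ⟨i, y, hy⟩ := 𝒰.exists_eq (x : Spec B)
  have hx : (x : Spec B) ∈ (𝒰.f i).opensRange := ⟨y, hy⟩
  obtain ⟨_, ⟨a, rfl⟩, hxa, hle⟩ :=
    PrimeSpectrum.isTopologicalBasis_basic_opens.exists_subset_of_mem_open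
    hx (𝒰.f i).opensRange.2
  refine ⟨a, hxa, ?_⟩
  obtain ⟨C, g, h, hg, hfac⟩ := h𝒰 _ _ (Presieve.ofArrows.mk i)
  have hrange : Set.range (Spec.map (toAway B a)).base ⊆ Set.range (𝒰.f i).base := by
    refine subset_trans (le_of_eq ?_) hle
    have := Scheme.Hom.opensRange_localizationAway (R := B) a
    exact congrArg (fun U : TopologicalSpace.Opens _ => U.carrier) this
  let l := IsOpenImmersion.lift (𝒰.f i) (Spec.map (toAway B a)) hrange
  have hl : l ≫ 𝒰.f i = Spec.map (toAway B a) := IsOpenImmersion.lift_fac _ _ _
  let φ : op (CommRingCat.of (Localization.Away a)) ⟶ C := Scheme.Spec.preimage (l ≫ h)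
  have hφ : φ ≫ g = (toAway B a).op := by
    apply Scheme.Spec.map_injective
    rw [Functor.map_comp, Functor.map_preimage, Category.assoc, ← hfac, hl]
    rfl
  rw [← hφ]
  exact S.downward_closed hg φ

/-- Every covering sieve of the big affine Zariski topology contains a finite standard cover. -/
lemma exists_stdPresieve_le {B : CommRingCat.{u}} (S : Sieve (op B))
    (hS : S ∈ affineZariskiTopology.{u} (op B)) :
    ∃ s : Finset B, Ideal.span (s : Set B) = ⊤ ∧ stdPresieve B s ≤ S := by
  have hspan : Ideal.span {a : B | S (toAway B a).op} = ⊤ := by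
    rw [← PrimeSpectrum.iSup_basicOpen_eq_top_iff', eq_top_iff]
    intro x _
    obtain ⟨a, hxa, ha⟩ := exists_away_mem_of_mem S hS x
    simp only [TopologicalSpace.Opens.mem_iSup]
    exact ⟨a, ha, hxa⟩
  obtain ⟨s, hsub, hs⟩ := (Ideal.span_eq_top_iff_finite _).mp hspan
  refine ⟨s, hs, ?_⟩
  rintro Y f ⟨⟨a, ha⟩⟩
  exact hsub ha

lemma affineZariskiTopology_le_stdCoverage :
    affineZariskiTopology.{u} ≤ stdCoverage.{u}.toGrothendieck := by
  rintro ⟨B⟩ S hS
  obtain ⟨s, hs, hle⟩ := exists_stdPresieve_le S hS
  exact stdCoverage.mem_toGrothendieck_sieves_of_superset hle ⟨s, hs, rfl⟩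

/-- A functor on rings satisfying the Zariski sheaf condition for finite standard covers
defines a sheaf on the big affine Zariski site. -/
theorem isSheaf_toPresheaf {F : CommRingCat.{u} ⥤ Type u} (hF : IsZariskiSheafAff F) :
    Presieve.IsSheaf affineZariskiTopology.{u} (toPresheaf F) := by
  refine Presieve.isSheaf_of_le _ affineZariskiTopology_le_stdCoverage ?_
  rw [Presieve.isSheaf_coverage]
  rintro ⟨B⟩ R ⟨s, hs, rfl⟩
  rw [stdPresieve, Presieve.isSheafFor_arrows_iff]
  intro x hx
  exact hF B s hs x (fun a b C g h hgh => hx a b (op C) g.op h.op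
    (by rw [← op_comp, ← op_comp, hgh]))

/-- The sheaf on the big affine Zariski site attached to a functor on rings satisfying the
Zariski sheaf condition. -/
noncomputable def affSheaf (F : CommRingCat.{u} ⥤ Type u) (hF : IsZariskiSheafAff F) :
    Sheaf affineZariskiTopology.{u} (Type u) :=
  ⟨toPresheaf F, (isSheaf_iff_isSheaf_of_type _ _).mpr (isSheaf_toPresheaf hF)⟩

/-- Variant of the sheaf condition where compatibility is only required on the double
localisations `B_{ab}`.  This is the classical form of the condition. -/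
theorem IsZariskiSheafAff.mk' (F : CommRingCat.{u} ⥤ Type u)
    (h : ∀ (B : CommRingCat.{u}) (s : Finset B), Ideal.span (s : Set B) = ⊤ →
      ∀ x : ∀ a : s, F.obj (CommRingCat.of (Localization.Away a.1)),
        (∀ a b : s, F.map (CommRingCat.ofHom (IsLocalization.Away.awayToAwayRight
            (S := Localization.Away a.1) (P := Localization.Away (a.1 * b.1)) a.1 b.1)) (x a) =
          F.map (CommRingCat.ofHom (IsLocalization.Away.awayToAwayLeft
            (S := Localization.Away b.1) (P := Localization.Away (a.1 * b.1)) b.1 a.1)) (x b)) →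
        ∃! t : F.obj B, ∀ a : s, F.map (toAway B a.1) t = x a) :
    IsZariskiSheafAff F := by
  intro B s hs x hx
  refine h B s hs x (fun a b => hx a b _ _ _ ?_)
  ext r
  simp [toAway, IsLocalization.Away.awayToAwayRight_eq, IsLocalization.Away.awayToAwayLeft_eq]

end Fermat.Agent.JAC.Repr.StdCover10
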