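/-
Programme JAC, work package B5-core (helper10): abstract representability.

File 3: the extension of a Zariski sheaf on rings to a Zariski sheaf on all schemes, and its
basic API: values on affine schemes, separatedness for open covers.
-/
import Fermat.Agent.JAC.Repr.StdCover10

set_option autoImplicit false

universe u

open CategoryTheory Limits Opposite AlgebraicGeometry

namespace Fermat.Agent.JAC.Repr.Extend10

open Fermat.Agent.JAC.Repr.AffineSite10 Fermat.Agent.JAC.Repr.StdCover10

variable (F : CommRingCat.{u} ⥤ Type u) (hF : IsZariskiSheafAff F)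

/-- Restriction of Zariski sheaves on schemes to the big affine Zariski site. -/
noncomputable abbrev restrictFunctor :
    Sheaf Scheme.zariskiTopology.{u} (Type u) ⥤ Sheaf affineZariskiTopology.{u} (Type u) :=
  Scheme.Spec.{u}.sheafPushforwardContinuous (Type u) affineZariskiTopology.{u}
    Scheme.zariskiTopology.{u}

/-- The Zariski sheaf on all schemes extending a functor on rings which satisfies the
Zariski sheaf condition. -/
noncomputable def extSheaf : Sheaf Scheme.zariskiTopology.{u} (Type u) :=
  (restrictFunctor.{u}).inv.obj (affSheaf F hF)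

/-- The restriction of the extended sheaf to affine schemes is the original functor. -/
noncomputable def extSheafIso : (restrictFunctor.{u}).obj (extSheaf F hF) ≅ affSheaf F hF :=
  (restrictFunctor.{u}).asEquivalence.counitIso.app (affSheaf F hF)

/-- The isomorphism of presheaves `Spec.op ⋙ extSheaf ≅ F`. -/
noncomputable def extPresheafIso :
    Scheme.Spec.{u}.op ⋙ (extSheaf F hF).obj ≅ toPresheaf F :=
  (sheafToPresheaf _ _).mapIso (extSheafIso F hF)

/-- The value of the extended sheaf on a scheme `T`. -/
abbrev Pts (T : Scheme.{u}) : Type u := (extSheaf F hF).obj.obj (op T)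

variable {F hF}

/-- Pullback of a point of the extended sheaf along a morphism of schemes. -/
noncomputable abbrev pull {Z T : Scheme.{u}} (h : Z ⟶ T) (ξ : Pts F hF T) : Pts F hF Z :=
  (extSheaf F hF).obj.map h.op ξ

@[simp]
lemma pull_id {T : Scheme.{u}} (ξ : Pts F hF T) : pull (𝟙 T) ξ = ξ := by
  simp [pull]

lemma pull_comp {Y Z T : Scheme.{u}} (g : Y ⟶ Z) (h : Z ⟶ T) (ξ : Pts F hF T) :
    pull (g ≫ h) ξ = pull g (pull h ξ) := by
  simp [pull]

variable (F hF) in
/-- The value of the extended sheaf on `Spec B` is `F.obj B`. -/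
noncomputable def aff (B : CommRingCat.{u}) : Pts F hF (Spec B) ≃ F.obj B :=
  ((extPresheafIso F hF).app (op (op B))).toEquiv

lemma aff_pull {B B' : CommRingCat.{u}} (φ : B ⟶ B') (ξ : Pts F hF (Spec B)) :
    aff F hF B' (pull (Spec.map φ) ξ) = F.map φ (aff F hF B ξ) := by
  exact ConcreteCategory.congr_hom
    ((extPresheafIso F hF).hom.naturality (X := op (op B)) (Y := op (op B')) φ.op.op) ξ

lemma aff_symm_map {B B' : CommRingCat.{u}} (φ : B ⟶ B') (x : F.obj B) :
    (aff F hF B').symm (F.map φ x) = pull (Spec.map φ) ((aff F hF B).symm x) := by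
  apply (aff F hF B').injective
  rw [Equiv.apply_symm_apply, aff_pull, Equiv.apply_symm_apply]

variable (F hF) in
lemma isSheaf_extSheaf : Presieve.IsSheaf Scheme.zariskiTopology.{u} (extSheaf F hF).obj :=
  (isSheaf_iff_isSheaf_of_type _ _).mp (extSheaf F hF).property

/-- Points of the extended sheaf are determined by their restrictions to an open cover. -/
lemma pts_ext {T : Scheme.{u}} (𝒰 : T.OpenCover) {ξ η : Pts F hF T}
    (h : ∀ i, pull (𝒰.f i) ξ = pull (𝒰.f i) η) : ξ = η := by
  have hsep := ((isSheaf_extSheaf F hF).isSheafFor (Presieve.ofArrows 𝒰.X 𝒰.f)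
    𝒰.mem_grothendieckTopology).isSeparatedFor
  refine hsep.ext ?_
  rintro Y f ⟨i⟩
  exact h i

end Fermat.Agent.JAC.Repr.Extend10
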