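/-
Programme JAC (helper24): a LOCAL criterion for pointwise charts, on top of helper10's B5-core.

For a Zariski sheaf `F` on rings and `x : F.obj R` with the injectivity property `(Ch1)`:
* `exists_hom_of_span` : a point `ξ : F.obj B` comes from the chart as soon as it does so on a
  standard cover of `Spec B` (the local factorizations glue);
* `pointwiseChart_of_local` : to build a `PointwiseChart` it suffices to give the predicate `W`
  (invariant under field extensions), to check it on the points of `Spec R` for the universal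
  element, and to show that if `W` holds at a prime `p` of `B` then `ξ` comes from the chart on a
  basic open neighbourhood of `p`.  Openness `(Ch3)` and the global `(Ch2)` follow.
-/
import Fermat.Agent.JAC.Repr.Pointwise10

set_option autoImplicit false

universe u

open CategoryTheory Limits Opposite AlgebraicGeometry

namespace Fermat.Agent.JAC.Repr.LocalChart24

open Fermat.Agent.JAC.Repr.StdCover10 Fermat.Agent.JAC.Repr.Extend10
  Fermat.Agent.JAC.Repr.Chart10 Fermat.Agent.JAC.Repr.Pointwise10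

variable {F : CommRingCat.{u} ⥤ Type u} {hF : IsZariskiSheafAff F}
  {R : CommRingCat.{u}} {x : F.obj R}

/-- Injectivity of a chart on points with values in arbitrary schemes (only `(Ch1)` is used). -/
lemma hom_ext_of_pull_chartPt_of_inj
    (inj : ∀ ⦃B : CommRingCat.{u}⦄ (φ ψ : R ⟶ B), F.map φ x = F.map ψ x → φ = ψ)
    {Z : Scheme.{u}} (ψ₁ ψ₂ : Z ⟶ Spec R)
    (h : pull ψ₁ (chartPt hF x) = pull ψ₂ (chartPt hF x)) : ψ₁ = ψ₂ := by
  refine Z.affineOpenCover.openCover.hom_ext _ _ fun i => ?_
  obtain ⟨φ₁, h₁⟩ := Spec.map_surjective (Z.affineOpenCover.f i ≫ ψ₁)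
  obtain ⟨φ₂, h₂⟩ := Spec.map_surjective (Z.affineOpenCover.f i ≫ ψ₂)
  change Z.affineOpenCover.f i ≫ ψ₁ = Z.affineOpenCover.f i ≫ ψ₂
  rw [← h₁, ← h₂]
  congr 1
  apply inj
  rw [← aff_pull_chartPt (hF := hF), ← aff_pull_chartPt (hF := hF), h₁, h₂, pull_comp, pull_comp, h]

/-- Factoring through a chart is local on the source (only `(Ch1)` is used). -/
lemma factors_of_openCover_of_inj
    (inj : ∀ ⦃B : CommRingCat.{u}⦄ (φ ψ : R ⟶ B), F.map φ x = F.map ψ x → φ = ψ)
    {T : Scheme.{u}} {ξ : Pts F hF T} {Z : Scheme.{u}} {h : Z ⟶ T} (𝒰 : Z.OpenCover)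
    (H : ∀ i, Factors hF x ξ (𝒰.f i ≫ h)) : Factors hF x ξ h := by
  choose ψ hψ using H
  have hcompat : ∀ i j, pullback.fst (𝒰.f i) (𝒰.f j) ≫ ψ i =
      pullback.snd (𝒰.f i) (𝒰.f j) ≫ ψ j := by
    intro i j
    apply hom_ext_of_pull_chartPt_of_inj (hF := hF) inj
    rw [pull_comp, pull_comp, hψ, hψ, ← pull_comp, ← pull_comp, ← Category.assoc,
      ← Category.assoc, pullback.condition]
  refine ⟨𝒰.glueMorphisms ψ hcompat, ?_⟩
  refine pts_ext 𝒰 fun i => ?_
  rw [← pull_comp, ← pull_comp, 𝒰.ι_glueMorphisms, hψ]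

/-- **Gluing of local factorizations**: if `ξ : F.obj B` comes from the chart `(R, x)` on each
member of a standard cover of `Spec B`, then it comes from the chart. -/
theorem exists_hom_of_span (hF : IsZariskiSheafAff F)
    (inj : ∀ ⦃B : CommRingCat.{u}⦄ (φ ψ : R ⟶ B), F.map φ x = F.map ψ x → φ = ψ)
    (B : CommRingCat.{u}) (ξ : F.obj B) (s : Set B) (hs : Ideal.span s = ⊤)
    (h : ∀ a ∈ s, ∃ ψ : R ⟶ CommRingCat.of (Localization.Away a),
      F.map ψ x = F.map (toAway B a) ξ) :
    ∃ ψ : R ⟶ B, F.map ψ x = ξ := by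
  have hs' : Ideal.span (Set.range (fun a : s => (a : B))) = ⊤ := by
    rw [Subtype.range_coe]; exact hs
  let 𝒰 := (Scheme.affineOpenCoverOfSpanRangeEqTop (R := B) (fun a : s => (a : B)) hs').openCover
  have key : Factors hF x ((aff F hF B).symm ξ) (𝟙 (Spec B)) := by
    refine factors_of_openCover_of_inj (hF := hF) inj 𝒰 fun a => ?_
    have ha : ∀ a : s, Factors hF x ((aff F hF B).symm ξ)
        (Spec.map (toAway B a.1) ≫ 𝟙 (Spec B)) := by
      intro a
      obtain ⟨ψ, hψ⟩ := h a.1 a.2
      refine ⟨Spec.map ψ, ?_⟩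
      apply (aff F hF (CommRingCat.of (Localization.Away a.1))).injective
      rw [aff_pull_chartPt, hψ, Category.comp_id, aff_pull, Equiv.apply_symm_apply]
    exact ha a
  obtain ⟨ψ, hψ⟩ := key
  obtain ⟨ψ', rfl⟩ := Spec.map_surjective ψ
  refine ⟨ψ', ?_⟩
  rw [← aff_pull_chartPt (hF := hF), hψ, pull_id, Equiv.apply_symm_apply]

section Local

variable (W : ∀ (K : Type u) [Field K], F.obj (CommRingCat.of K) → Prop)
  (W_iff : ∀ {K L : Type u} [Field K] [Field L] (φ : CommRingCat.of K ⟶ CommRingCat.of L)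
    (ξ : F.obj (CommRingCat.of K)), W L (F.map φ ξ) ↔ W K ξ)

include W_iff in
/-- The predicate `W` at the residue field of `φ⁻¹(p')` of `ξ` agrees with the predicate at the
residue field of `p'` of the image of `ξ` (version of `PointwiseChart.W_comap` for a bare
predicate). -/
lemma W_comap_of_W_iff {B B' : CommRingCat.{u}} (φ : B ⟶ B')
    (ξ : F.obj B) (p' : PrimeSpectrum B') :
    W p'.asIdeal.ResidueField (F.map (toResidue B' p') (F.map φ ξ)) ↔
      W (PrimeSpectrum.comap φ.hom p').asIdeal.ResidueField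
        (F.map (toResidue B (PrimeSpectrum.comap φ.hom p')) ξ) := by
  have hcomm : toResidue B (PrimeSpectrum.comap φ.hom p') ≫
      CommRingCat.ofHom (Ideal.ResidueField.map (PrimeSpectrum.comap φ.hom p').asIdeal
        p'.asIdeal φ.hom rfl) = φ ≫ toResidue B' p' := by
    ext r
    exact Ideal.ResidueField.map_algebraMap _ _ _ _ r
  rw [← W_iff (CommRingCat.ofHom (Ideal.ResidueField.map
    (PrimeSpectrum.comap φ.hom p').asIdeal p'.asIdeal φ.hom rfl))]
  have h1 : F.map (toResidue B' p') (F.map φ ξ) = F.map (φ ≫ toResidue B' p') ξ :=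
    (map_comp_apply' F _ _ ξ).symm
  have h2 : F.map (CommRingCat.ofHom (Ideal.ResidueField.map
      (PrimeSpectrum.comap φ.hom p').asIdeal p'.asIdeal φ.hom rfl))
      (F.map (toResidue B (PrimeSpectrum.comap φ.hom p')) ξ) = F.map (φ ≫ toResidue B' p') ξ := by
    rw [← hcomm]
    exact (map_comp_apply' F _ _ ξ).symm
  rw [h1, h2]

include W_iff in
/-- If `W` holds at all points of `Spec R` for the universal element, it holds at all points of
`Spec B` for every element coming from the chart. -/
lemma W_of_hom (univ : ∀ p : PrimeSpectrum R, W p.asIdeal.ResidueField (F.map (toResidue R p) x))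
    {B : CommRingCat.{u}} (ψ : R ⟶ B) (p : PrimeSpectrum B) :
    W p.asIdeal.ResidueField (F.map (toResidue B p) (F.map ψ x)) :=
  (W_comap_of_W_iff W W_iff ψ x p).mpr (univ _)

/-- **Local criterion for pointwise charts.**  Given a Zariski sheaf `F`, an element `x : F.obj R`
with `(Ch1)`, and a predicate `W` on field-valued points which is invariant under field
extensions, holds at every point of `Spec R` for `x`, and such that whenever `W` holds at a prime
`p` of `B` for `ξ`, the restriction of `ξ` to a basic open neighbourhood of `p` comes from the chart: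
then `(R, x)` is a pointwise chart with predicate `W`. -/
noncomputable def pointwiseChart_of_local (hF : IsZariskiSheafAff F)
    (inj : ∀ ⦃B : CommRingCat.{u}⦄ (φ ψ : R ⟶ B), F.map φ x = F.map ψ x → φ = ψ)
    (univ : ∀ p : PrimeSpectrum R, W p.asIdeal.ResidueField (F.map (toResidue R p) x))
    (loc : ∀ (B : CommRingCat.{u}) (ξ : F.obj B) (p : PrimeSpectrum B),
      W p.asIdeal.ResidueField (F.map (toResidue B p) ξ) →
      ∃ f : B, f ∉ p.asIdeal ∧ ∃ ψ : R ⟶ CommRingCat.of (Localization.Away f),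
        F.map ψ x = F.map (toAway B f) ξ) :
    PointwiseChart F x where
  W := W
  W_iff := W_iff
  inj := inj
  mem_iff B ξ := by
    constructor
    · rintro ⟨ψ, rfl⟩ p
      exact W_of_hom W W_iff univ ψ p
    · intro h
      refine exists_hom_of_span hF inj B ξ
        {f | ∃ ψ : R ⟶ CommRingCat.of (Localization.Away f), F.map ψ x = F.map (toAway B f) ξ}
        ?_ (fun a ha => ha)
      by_contra hne
      obtain ⟨m, hm, hle⟩ := Ideal.exists_le_maximal _ hne
      obtain ⟨f, hf, hψ⟩ := loc B ξ ⟨m, hm.isPrime⟩ (h _)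
      exact hf (hle (Ideal.subset_span hψ))
  isOpen B ξ := by
    rw [isOpen_iff_forall_mem_open]
    intro p hp
    obtain ⟨f, hf, ψ, hψ⟩ := loc B ξ p hp
    refine ⟨PrimeSpectrum.basicOpen f, ?_, (PrimeSpectrum.basicOpen f).isOpen, hf⟩
    intro q hq
    -- `q` comes from a prime of `B_f`
    have hq' : q ∈ Set.range (PrimeSpectrum.comap (algebraMap B (Localization.Away f))) := by
      rw [PrimeSpectrum.localization_away_comap_range (Localization.Away f) f]
      exact hq
    obtain ⟨q', rfl⟩ := hq'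
    have h1 := W_of_hom W W_iff univ ψ q'
    rw [hψ] at h1
    exact (W_comap_of_W_iff W W_iff (toAway B f) ξ q').mp h1

end Local

section LocalOpenImmersion

variable (W : ∀ (K : Type u) [Field K], F.obj (CommRingCat.of K) → Prop)
  (W_iff : ∀ {K L : Type u} [Field K] [Field L] (φ : CommRingCat.of K ⟶ CommRingCat.of L)
    (ξ : F.obj (CommRingCat.of K)), W L (F.map φ ξ) ↔ W K ξ)

/-- **Gluing of local factorizations, general form**: if every point of `Spec B` lies in the image
of an open immersion `Spec B' ⟶ Spec B` such that the restriction of `ξ` to `B'` comes from the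
chart, then `ξ` comes from the chart. -/
theorem exists_hom_of_forall_openImmersion (hF : IsZariskiSheafAff F)
    (inj : ∀ ⦃B : CommRingCat.{u}⦄ (φ ψ : R ⟶ B), F.map φ x = F.map ψ x → φ = ψ)
    (B : CommRingCat.{u}) (ξ : F.obj B)
    (h : ∀ p : PrimeSpectrum B, ∃ (B' : CommRingCat.{u}) (j : B ⟶ B'),
      IsOpenImmersion (Spec.map j) ∧ p ∈ Set.range (Spec.map j) ∧
      ∃ ψ : R ⟶ B', F.map ψ x = F.map j ξ) :
    ∃ ψ : R ⟶ B, F.map ψ x = ξ := by
  choose B' j hj hp ψ hψ using h
  have key : Factors hF x ((aff F hF B).symm ξ) (𝟙 (Spec B)) := by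
    let 𝒰 : (Spec B).OpenCover :=
      { I₀ := PrimeSpectrum B
        X := fun p => Spec (B' p)
        f := fun p => Spec.map (j p)
        mem₀ := by
          rw [Scheme.presieve₀_mem_precoverage_iff]
          refine ⟨fun y => ⟨y, hp y⟩, fun p => hj p⟩ }
    refine factors_of_openCover_of_inj (hF := hF) inj 𝒰 fun p => ?_
    refine ⟨Spec.map (ψ p), ?_⟩
    apply (aff F hF (B' p)).injective
    have h1 : 𝒰.f p ≫ 𝟙 (Spec B) = Spec.map (j p) := Category.comp_id _
    rw [aff_pull_chartPt, hψ, h1, aff_pull, Equiv.apply_symm_apply]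
  obtain ⟨ψ₀, hψ₀⟩ := key
  obtain ⟨ψ', rfl⟩ := Spec.map_surjective ψ₀
  refine ⟨ψ', ?_⟩
  rw [← aff_pull_chartPt (hF := hF), hψ₀, pull_id, Equiv.apply_symm_apply]

/-- **Local criterion for pointwise charts, general form**: as `pointwiseChart_of_local`, but the
neighbourhood of `p` may be any affine open immersion `Spec B' ⟶ Spec B` (e.g. an iterated
localisation) instead of a basic open. -/
noncomputable def pointwiseChart_of_local' (hF : IsZariskiSheafAff F)
    (inj : ∀ ⦃B : CommRingCat.{u}⦄ (φ ψ : R ⟶ B), F.map φ x = F.map ψ x → φ = ψ)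
    (univ : ∀ p : PrimeSpectrum R, W p.asIdeal.ResidueField (F.map (toResidue R p) x))
    (loc : ∀ (B : CommRingCat.{u}) (ξ : F.obj B) (p : PrimeSpectrum B),
      W p.asIdeal.ResidueField (F.map (toResidue B p) ξ) →
      ∃ (B' : CommRingCat.{u}) (j : B ⟶ B'), IsOpenImmersion (Spec.map j) ∧
        p ∈ Set.range (Spec.map j) ∧ ∃ ψ : R ⟶ B', F.map ψ x = F.map j ξ) :
    PointwiseChart F x where
  W := W
  W_iff := W_iff
  inj := inj
  mem_iff B ξ := by
    constructor
    · rintro ⟨ψ, rfl⟩ p
      exact W_of_hom W W_iff univ ψ p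
    · intro h
      exact exists_hom_of_forall_openImmersion hF inj B ξ fun p => loc B ξ p (h p)
  isOpen B ξ := by
    rw [isOpen_iff_forall_mem_open]
    intro p hp
    obtain ⟨B', j, hj, hpj, ψ, hψ⟩ := loc B ξ p hp
    refine ⟨Set.range (Spec.map j), ?_, (Spec.map j).isOpenEmbedding.isOpen_range, hpj⟩
    rintro _ ⟨q', rfl⟩
    have h1 := W_of_hom W W_iff univ ψ q'
    rw [hψ] at h1
    exact (W_comap_of_W_iff W W_iff j ξ q').mp h1

end LocalOpenImmersion

end Fermat.Agent.JAC.Repr.LocalChart24
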