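/-
Programme JAC, work package B8.0 (helper10): wiring abstract representability.

File 15: the final assembly in relative form.  From Zariski descent for the classes in the cut
`P` and a relative atlas (`AlgChart10.RelAtlas`) we obtain a `RelativePic0Designation` which
`RepresentsRelSubPic`, covered by the open affine charts `Spec (R γ)`, which are schemes over
`Spec k` through the given structure maps `k →+* R γ`.
-/
import Fermat.Agent.JAC.Repr.AlgChart10
import Fermat.Agent.JAC.Repr.Jacobian10

set_option autoImplicit false

universe u

open CategoryTheory Limits Opposite AlgebraicGeometry AlgebraicGeometry.RelPicard NeronModelInfra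
  GoodReductionJacobian

namespace Fermat.Agent.JAC.Repr.RelJacobian10

open Fermat.Agent.JAC.Repr.AllSchemes10 Fermat.Agent.JAC.Repr.Wiring10
  Fermat.Agent.JAC.Repr.Restrict10 Fermat.Agent.JAC.Repr.AlgChart10
  Fermat.Agent.JAC.Repr.Jacobian10

variable {k : Type u} [CommRing k] {C : Scheme.{u}} {c : C ⟶ Spec (CommRingCat.of k)}
  {ε : SchemeHomOver (𝟙 (Spec (CommRingCat.of k))) c} {P : SubPicCondition c ε}
  [hs : ∀ {T : Scheme.{u}} (t : T ⟶ Spec (CommRingCat.of k)), Small.{u} (CutClasses P t)]
  (hP : CutDescent P) (RA : RelAtlas P)

/-- The designation attached to a relative atlas. -/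
noncomputable def relDesignation : RelativePic0Designation k c := jacDesignation hP RA.atlas

/-- The representing structure attached to a relative atlas. -/
noncomputable def relRepresents : RepresentsRelSubPic c ε P (relDesignation hP RA) :=
  jacRepresents hP RA.atlas

/-- The representability datum attached to a relative atlas. -/
noncomputable def relRep : (G P).RepresentableBy (relDesignation hP RA).P := jacRep hP RA.atlas

lemma relDesignation_toBase : (relDesignation hP RA).toBase = toBase (relRep hP RA) := rfl

/-- The charts of the representing scheme. -/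
noncomputable def relChart (γ : RA.ι) :
    Spec (CommRingCat.of (RA.R γ)) ⟶ (relDesignation hP RA).P :=
  jacChart hP RA.atlas γ

instance (γ : RA.ι) : IsOpenImmersion (relChart hP RA γ) :=
  RA.atlas.isOpenImmersion_chart (isZariskiSheafAff hP) γ

lemma relChart_toBase (γ : RA.ι) :
    relChart hP RA γ ≫ (relDesignation hP RA).toBase = strOf (RA.str γ) :=
  jacChart_toBase hP RA.atlas γ

lemma exists_mem_range_relChart (j : (relDesignation hP RA).P) :
    ∃ γ, j ∈ Set.range (relChart hP RA γ) :=
  exists_mem_range_jacChart hP RA.atlas j

/-- A property of morphisms which is Zariski-local at the source holds for the structure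
morphism of the representing scheme as soon as it holds for `Spec (R γ) ⟶ Spec k`, all `γ`. -/
lemma relToBase_of_charts (Q : MorphismProperty Scheme.{u}) [IsZariskiLocalAtSource Q]
    (h : ∀ γ, Q (strOf (RA.str γ))) : Q (relDesignation hP RA).toBase :=
  toBase_of_charts hP RA.atlas Q h

/-- If the chart rings are `k`-algebras of finite type, the representing scheme is locally of
finite type over `Spec k`. -/
lemma locallyOfFiniteType_toBase (h : ∀ γ, (RA.str γ).FiniteType) :
    LocallyOfFiniteType (relDesignation hP RA).toBase :=
  haveI : IsZariskiLocalAtSource @LocallyOfFiniteType.{u} :=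
    HasRingHomProperty.instIsZariskiLocalAtSource
  relToBase_of_charts hP RA @LocallyOfFiniteType fun γ =>
    (HasRingHomProperty.Spec_iff (P := @LocallyOfFiniteType)).2 (h γ)

/-- If the chart rings are smooth `k`-algebras, the representing scheme is smooth over
`Spec k`. -/
lemma smooth_toBase (h : ∀ γ, (RA.str γ).Smooth) : Smooth (relDesignation hP RA).toBase :=
  haveI : IsZariskiLocalAtSource @Smooth.{u} := HasRingHomProperty.instIsZariskiLocalAtSource
  relToBase_of_charts hP RA @Smooth fun γ =>
    (HasRingHomProperty.Spec_iff (P := @Smooth)).2 (h γ)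

include hP RA in
/-- Existence form of the final assembly in relative form. -/
theorem exists_designation_representsRelSubPic :
    ∃ D : RelativePic0Designation k c, Nonempty (RepresentsRelSubPic c ε P D) ∧
      ∃ f : ∀ γ : RA.ι, Spec (CommRingCat.of (RA.R γ)) ⟶ D.P, (∀ γ, IsOpenImmersion (f γ)) ∧
        (∀ γ, f γ ≫ D.toBase = strOf (RA.str γ)) ∧ ∀ j : D.P, ∃ γ, j ∈ Set.range (f γ) :=
  ⟨relDesignation hP RA, ⟨relRepresents hP RA⟩, relChart hP RA, fun _ => inferInstance,
    relChart_toBase hP RA, exists_mem_range_relChart hP RA⟩

end Fermat.Agent.JAC.Repr.RelJacobian10
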